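import Fermat.Agent.JE3.Q5
import Fermat.Agent.JE.ToLD

set_option autoImplicit false

/-! S25 block E3, (E-a): line data determine the sheaf of modules on `C_B`. -/

universe u

open CategoryTheory CategoryTheory.Limits AlgebraicGeometry TopologicalSpace Opposite
open NeronModelInfra AlgebraicGeometry.RelPicard
open scoped TensorProduct

namespace Fermat.Agent.JE3

open Fermat.Agent.JPC Fermat.Agent.JKL Fermat.Agent.JCB Fermat.Agent.JE
open Fermat.Agent.JPb (Gen)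

noncomputable section

variable {k : Type u} [Field k] {C : Scheme.{u}} {c : C ⟶ Spec (CommRingCat.of k)}
  {ε : SchemeHomOver (𝟙 (Spec (CommRingCat.of k))) c} {X : TwoChart k} (ch : Chart c ε X)
  {B : Type u} [CommRing B] [Algebra k B] {Y : Scheme.{u}} {fst : Y ⟶ C}
  {snd : Y ⟶ Spec (CommRingCat.of B)}
  (H : IsPullback fst snd c (Spec.map (CommRingCat.ofHom (algebraMap k B))))
  {𝓜 𝓜' : Y.Modules} (hM : LocFree 𝓜 ⊤) (hM' : LocFree 𝓜' ⊤)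

/-- isomorphisms of line data are linear over `B ⊗ A` -/
theorem iso_smul {L L' : PreLD X B} (f : L.Iso L') (s : B ⊗[k] X.A) (m : L.M) :
    f.e (s • m) = s • f.e m := by
  induction s with
  | zero => rw [zero_smul (B ⊗[k] X.A) m, map_zero, zero_smul (B ⊗[k] X.A) (f.e m)]
  | tmul b a => rw [PreLD.tmul_smul, PreLD.tmul_smul, map_smul, f.smul]
  | add x y hx hy => rw [add_smul, map_add, hx, hy, add_smul]

omit [CommRing B] [Algebra k B] in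
theorem cover_top (fst : Y ⟶ C) : fst ⁻¹ᵁ ch.U ⊔ fst ⁻¹ᵁ ch.V = ⊤ := by
  rw [← Scheme.Hom.preimage_sup, ch.cov, Scheme.Hom.preimage_top]

/-- (E-a), first direction -/
theorem nonempty_iso_of_toLD (f : (toLD ch H 𝓜 hM).Iso (toLD ch H 𝓜' hM')) :
    Nonempty (𝓜 ≅ 𝓜') := by
  let φ : Γ(𝓜, fst ⁻¹ᵁ ch.U ⊓ fst ⁻¹ᵁ ch.V) ≃ₗ[Γ(Y, fst ⁻¹ᵁ ch.U ⊓ fst ⁻¹ᵁ ch.V)]
      Γ(𝓜', fst ⁻¹ᵁ ch.U ⊓ fst ⁻¹ᵁ ch.V) :=
    { toFun := fun m => f.e m
      invFun := fun m => f.e.symm m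
      left_inv := fun m => f.e.symm_apply_apply m
      right_inv := fun m => f.e.apply_symm_apply m
      map_add' := fun m n => map_add f.e m n
      map_smul' := fun r m => by
        obtain ⟨s, rfl⟩ := (muA_bij ch H).2 r
        have h1 := iso_smul f s m
        exact (congrArg f.e (toLD_smul ch H hM s m)).symm.trans
          (h1.trans (toLD_smul ch H hM' s (f.e m))) }
  have h0 : ∀ m, φ m ∈ Set.range (rs 𝓜' (inf_le_left : fst ⁻¹ᵁ ch.U ⊓ fst ⁻¹ᵁ ch.V ≤ _)) ↔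
      m ∈ Set.range (rs 𝓜 (inf_le_left : fst ⁻¹ᵁ ch.U ⊓ fst ⁻¹ᵁ ch.V ≤ _)) := by
    intro m
    have h1 : f.e m ∈ (toLD ch H 𝓜' hM').M0 ↔ m ∈ (toLD ch H 𝓜 hM).M0 := by
      rw [← f.map0]
      constructor
      · rintro ⟨m', hm', e⟩
        rwa [← f.e.injective e]
      · intro h
        exact ⟨m, h, rfl⟩
    exact h1
  have h1 : ∀ m, φ m ∈ Set.range (rs 𝓜' (inf_le_right : fst ⁻¹ᵁ ch.U ⊓ fst ⁻¹ᵁ ch.V ≤ _)) ↔
      m ∈ Set.range (rs 𝓜 (inf_le_right : fst ⁻¹ᵁ ch.U ⊓ fst ⁻¹ᵁ ch.V ≤ _)) := by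
    intro m
    have h1 : f.e m ∈ (toLD ch H 𝓜' hM').M1 ↔ m ∈ (toLD ch H 𝓜 hM).M1 := by
      rw [← f.map1]
      constructor
      · rintro ⟨m', hm', e⟩
        rwa [← f.e.injective e]
      · intro h
        exact ⟨m, h, rfl⟩
    exact h1
  have himg : ∀ {S : Set Γ(𝓜, fst ⁻¹ᵁ ch.U ⊓ fst ⁻¹ᵁ ch.V)}
      {S' : Set Γ(𝓜', fst ⁻¹ᵁ ch.U ⊓ fst ⁻¹ᵁ ch.V)} (h : ∀ m, φ m ∈ S' ↔ m ∈ S), φ '' S = S' := by
    intro S S' h
    ext m'
    constructor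
    · rintro ⟨m, hm, rfl⟩
      exact (h m).2 hm
    · intro hm
      exact ⟨φ.symm m', (h _).1 (by rwa [φ.apply_symm_apply]), φ.apply_symm_apply m'⟩
  exact nonempty_iso_of_LD (aff0 ch H) (aff1 ch H) (cover_top ch fst) (affA ch H) hM hM'
    (rsU_injective ch H hM) (rsV_injective ch H hM) (rsU_injective ch H hM')
    (rsV_injective ch H hM') φ (himg h0) (himg h1)

theorem app_bij {X : Scheme.{u}} {M N : X.Modules} (e : M ≅ N) (U : X.Opens) (s : Γ(M, U)) :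
    e.inv.app U (e.hom.app U s) = s := by
  have h : (e.hom ≫ e.inv).app U = (𝟙 M : M ⟶ M).app U := by rw [e.hom_inv_id]
  exact CategoryTheory.congr_fun h s

theorem app_bij' {X : Scheme.{u}} {M N : X.Modules} (e : M ≅ N) (U : X.Opens) (s : Γ(N, U)) :
    e.hom.app U (e.inv.app U s) = s := by
  have h : (e.inv ≫ e.hom).app U = (𝟙 N : N ⟶ N).app U := by rw [e.inv_hom_id]
  exact CategoryTheory.congr_fun h s

/-- (E-a), second direction -/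
def toLDIso (e : 𝓜 ≅ 𝓜') : (toLD ch H 𝓜 hM).Iso (toLD ch H 𝓜' hM') where
  e :=
    { toFun := fun m => e.hom.app (fst ⁻¹ᵁ (ch.U ⊓ ch.V)) m
      invFun := fun m => e.inv.app (fst ⁻¹ᵁ (ch.U ⊓ ch.V)) m
      left_inv := fun m => app_bij e _ m
      right_inv := fun m => app_bij' e _ m
      map_add' := fun m n => map_add (e.hom.app (fst ⁻¹ᵁ (ch.U ⊓ ch.V))).hom m n
      map_smul' := fun b m => e.hom.app_smul (muA ch H (b ⊗ₜ 1)) m }
  smul a m := e.hom.app_smul (muA ch H (1 ⊗ₜ a)) m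
  map0 := by
    ext m'
    constructor
    · rintro ⟨_, ⟨t, rfl⟩, rfl⟩
      exact ⟨e.hom.app _ t, rs_hom e.hom (leU ch fst) t⟩
    · rintro ⟨t, rfl⟩
      refine ⟨_, ⟨e.inv.app _ t, rfl⟩, ?_⟩
      have h1 := rs_hom e.hom (leU ch fst) (e.inv.app _ t)
      rw [app_bij'] at h1
      exact h1.symm
  map1 := by
    ext m'
    constructor
    · rintro ⟨_, ⟨t, rfl⟩, rfl⟩
      exact ⟨e.hom.app _ t, rs_hom e.hom (leV ch fst) t⟩
    · rintro ⟨t, rfl⟩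
      refine ⟨_, ⟨e.inv.app _ t, rfl⟩, ?_⟩
      have h1 := rs_hom e.hom (leV ch fst) (e.inv.app _ t)
      rw [app_bij'] at h1
      exact h1.symm

/-- (E-a) -/
theorem nonempty_iso_iff : Nonempty ((toLD ch H 𝓜 hM).Iso (toLD ch H 𝓜' hM')) ↔
    Nonempty (𝓜 ≅ 𝓜') :=
  ⟨fun ⟨f⟩ => nonempty_iso_of_toLD ch H hM hM' f, fun ⟨e⟩ => ⟨toLDIso ch H hM hM' e⟩⟩

end

end Fermat.Agent.JE3
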