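import Fermat.Agent.JE3.EE
import Fermat.Agent.JPb.ClMap

set_option autoImplicit false

/-! S25 block E3: products of modules and products of classes in `H1`. -/

universe u

open CategoryTheory CategoryTheory.Limits AlgebraicGeometry TopologicalSpace Opposite
open NeronModelInfra AlgebraicGeometry.RelPicard
open scoped TensorProduct

namespace Fermat.Agent.JE3

open Fermat.Agent.JPC Fermat.Agent.JKL Fermat.Agent.JCB Fermat.Agent.JE Fermat.Agent.JMod
open Fermat.Agent.JPb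

noncomputable section

variable {X : Scheme.{u}} {M N P : X.Modules}

theorem gen_unique {U V : X.Opens} {e : Γ(M, U)} (he : Gen M U e) (h : V ≤ U) {a b : Γ(X, V)}
    (hab : a • rs M h e = b • rs M h e) : a = b := (gen_iff.1 he V h).1 hab

/-- a product in `H1` gives a product of modules -/
theorem nonempty_prod3 (hM : Scheme.Modules.IsInvertible M) (hN : Scheme.Modules.IsInvertible N)
    (hP : Scheme.Modules.IsInvertible P) (h : cl P hP = cl M hM * cl N hN) :
    Nonempty (Prod3 M N P) := by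
  obtain ⟨c, hc, h1⟩ := isFrm_of_cl_eq_mk' hM
  obtain ⟨c', hc', h2⟩ := isFrm_of_cl_eq_mk' hN
  obtain ⟨d, hd, h3⟩ := isFrm_of_cl_eq_mk' hP
  rw [h1, h2, h3, ← H1.mk_mul, H1.mk_eq_iff] at h
  obtain ⟨V, hV, k1, k2, a, ha⟩ := h
  obtain ⟨p, hp, hpt⟩ := hd.res_of_rel V hV k1 k2 a ha
  obtain ⟨s, hs, hst⟩ := hc
  obtain ⟨t, ht, htt⟩ := hc'
  have l1 : ∀ x, V x ≤ c.U x := fun x => (k2 x).trans inf_le_left
  have l2 : ∀ x, V x ≤ c'.U x := fun x => (k2 x).trans inf_le_right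
  refine ⟨{
    ι := X
    U := V
    cov := fun x => ⟨x, hV x⟩
    e := fun x => rs M (l1 x) (s x)
    f := fun x => rs N (l2 x) (t x)
    g := p
    he := fun x => gen_rs (hs x) (l1 x)
    hf := fun x => gen_rs (ht x) (l2 x)
    hg := hp
    mul := ?_ }⟩
  intro i j a b hab hcd
  have e1 := frm_tr hst j i (W := V i ⊓ V j) (inf_le_right.trans (l1 j)) (inf_le_left.trans (l1 i))
  have e2 := frm_tr htt j i (W := V i ⊓ V j) (inf_le_right.trans (l2 j)) (inf_le_left.trans (l2 i))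
  have e3 := frm_tr hpt j i (W := V i ⊓ V j) inf_le_right inf_le_left
  rw [rs_rs, rs_rs] at hab hcd
  have ea := gen_unique (hs j) _ (hab.symm.trans e1)
  have eb := gen_unique (ht j) _ (hcd.symm.trans e2)
  refine e3.trans ?_
  refine congrArg (fun z : Γ(X, V i ⊓ V j) => z • rs P (inf_le_right : V i ⊓ V j ≤ V j) (p j)) ?_
  have e4 : (resLC (c.mul c') V hV k2).gr j i inf_le_right inf_le_left =
      (c.mul c').gr j i (inf_le_right.trans (k2 j)) ((inf_le_left : V i ⊓ V j ≤ V i).trans (k2 i)) :=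
    (c.mul c').ures_gr j i (W := V j ⊓ V i) (W' := V i ⊓ V j) (inf_le_left.trans (k2 j))
      (inf_le_right.trans (k2 i)) (le_inf inf_le_right inf_le_left)
  have e5 := congrArg Units.val (e4.trans (LC.mul_gr c c' j i _ _))
  rw [Units.val_mul] at e5
  rw [ea, eb]
  exact e5

/-- locally free = invertible -/
theorem locFree_of_isInvertible (hM : Scheme.Modules.IsInvertible M) : LocFree M ⊤ := by
  obtain ⟨c, ⟨s, hs, -⟩, -⟩ := isFrm_of_cl_eq_mk' hM
  exact fun x _ => ⟨c.U x, c.mem x, s x, hs x⟩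

section rel

variable {k : Type u} [Field k] {C : Scheme.{u}} {c : C ⟶ Spec (CommRingCat.of k)}
  {ε : SchemeHomOver (𝟙 (Spec (CommRingCat.of k))) c} {X : TwoChart k} (ch : Chart c ε X)
  {B : Type u} [CommRing B] [Algebra k B] {Y : Scheme.{u}} {fst : Y ⟶ C}
  {snd : Y ⟶ Spec (CommRingCat.of B)}
  (H : IsPullback fst snd c (Spec.map (CommRingCat.ofHom (algebraMap k B))))

/-- the class `h` has line datum `L` -/
def RelLD (h : H1 Y) (L : PreLD X B) : Prop :=
  ∃ (𝓜 : Y.Modules) (hM : Scheme.Modules.IsInvertible 𝓜), cl 𝓜 hM = h ∧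
    Nonempty ((toLD ch H 𝓜 (locFree_of_isInvertible hM)).Iso L)

/-- products -/
theorem RelLD.mul {h h' : H1 Y} {L L' L'' : PreLD X B} (hL : RelLD ch H h L)
    (hL' : RelLD ch H h' L') (hL'' : L''.IsLine) (hT : JTw.Tens L L' L'') :
    RelLD ch H (h * h') L'' := by
  obtain ⟨𝓜, hM, rfl, e1⟩ := hL
  obtain ⟨𝓝, hN, rfl, e2⟩ := hL'
  obtain ⟨𝓟, hP, h3⟩ := exists_cl (cl 𝓜 hM * cl 𝓝 hN)
  obtain ⟨D⟩ := nonempty_prod3 hM hN hP h3
  exact ⟨𝓟, hP, h3, nonempty_iso_of_tens ch H _ _ _ D e1 e2 hL'' hT⟩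

/-- the line datum determines the class -/
theorem RelLD.eq {h h' : H1 Y} {L L' : PreLD X B} (hL : RelLD ch H h L)
    (hL' : RelLD ch H h' L') (e : Nonempty (L.Iso L')) : h = h' := by
  obtain ⟨𝓜, hM, rfl, ⟨e1⟩⟩ := hL
  obtain ⟨𝓝, hN, rfl, ⟨e2⟩⟩ := hL'
  obtain ⟨e⟩ := e
  rw [cl_eq_iff]
  have e2' : L'.Iso (toLD ch H 𝓝 (locFree_of_isInvertible hN)) :=
    { e := e2.e.symm
      smul := fun a m => by
        apply e2.e.injective
        rw [e2.smul, LinearEquiv.apply_symm_apply, LinearEquiv.apply_symm_apply]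
      map0 := by
        rw [← e2.map0, ← Submodule.map_comp]
        convert Submodule.map_id _
        ext m
        simp
      map1 := by
        rw [← e2.map1, ← Submodule.map_comp]
        convert Submodule.map_id _
        ext m
        simp }
  have tr : ∀ {L₁ L₂ L₃ : PreLD X B}, L₁.Iso L₂ → L₂.Iso L₃ → L₁.Iso L₃ := fun {L₁ L₂ L₃} f g =>
    { e := f.e.trans g.e
      smul := fun a m => by
        show g.e (f.e (a • m)) = a • g.e (f.e m)
        rw [f.smul, g.smul]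
      map0 := by
        have : ((f.e.trans g.e : L₁.M ≃ₗ[B] L₃.M) : L₁.M →ₗ[B] L₃.M) =
            (g.e : L₂.M →ₗ[B] L₃.M) ∘ₗ (f.e : L₁.M →ₗ[B] L₂.M) := rfl
        rw [this, Submodule.map_comp, f.map0, g.map0]
      map1 := by
        have : ((f.e.trans g.e : L₁.M ≃ₗ[B] L₃.M) : L₁.M →ₗ[B] L₃.M) =
            (g.e : L₂.M →ₗ[B] L₃.M) ∘ₗ (f.e : L₁.M →ₗ[B] L₂.M) := rfl
        rw [this, Submodule.map_comp, f.map1, g.map1] }
  exact nonempty_iso_of_toLD ch H _ _ (tr (tr e1 e) e2')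

/-- every class has a line datum -/
theorem RelLD.exists (h : H1 Y) : ∃ L : PreLD X B, L.IsLine ∧ RelLD ch H h L := by
  obtain ⟨𝓜, hM, rfl⟩ := exists_cl h
  exact ⟨_, toLD_isLine ch H (locFree_of_isInvertible hM), 𝓜, hM, rfl,
    (nonempty_iso_iff ch H _ _).2 ⟨Iso.refl _⟩⟩

end rel

end

end Fermat.Agent.JE3
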