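import Fermat.Agent.JE3.Ext

set_option autoImplicit false

/-! S25 block E3 (Q5): an isomorphism on two affine charts gives an isomorphism. -/

universe u

open CategoryTheory AlgebraicGeometry TopologicalSpace Opposite
open Fermat.Agent.JE (ro rs rs_rs ro_ro ro_self rs_self rs_smul rs_sep rs_glue basicOpen_ro)

namespace Fermat.Agent.JE3

variable {X : Scheme.{u}} {M N : X.Modules} {U V : X.Opens}

/-- the extension of `φ` to a basic open -/
noncomputable def extφ (hM : QC M U) (φ : Γ(M, U) ≃ₗ[Γ(X, U)] Γ(N, U)) (f : Γ(X, U))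
    (s : Γ(M, X.basicOpen f)) : Γ(N, X.basicOpen f) :=
  (Rel.exists φ f hM s).choose

theorem extφ_spec (hM : QC M U) (φ : Γ(M, U) ≃ₗ[Γ(X, U)] Γ(N, U)) (f : Γ(X, U))
    (s : Γ(M, X.basicOpen f)) : Rel φ f s (extφ hM φ f s) :=
  (Rel.exists φ f hM s).choose_spec

theorem extφ_eq (hM : QC M U) (φ : Γ(M, U) ≃ₗ[Γ(X, U)] Γ(N, U)) (f : Γ(X, U))
    {s : Γ(M, X.basicOpen f)} {s' : Γ(N, X.basicOpen f)} (h : Rel φ f s s') :
    extφ hM φ f s = s' :=
  Rel.unique φ f hM (extφ_spec hM φ f s) h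

theorem extφ_add (hM : QC M U) (φ : Γ(M, U) ≃ₗ[Γ(X, U)] Γ(N, U)) (f : Γ(X, U))
    (s t : Γ(M, X.basicOpen f)) : extφ hM φ f (s + t) = extφ hM φ f s + extφ hM φ f t :=
  extφ_eq hM φ f ((extφ_spec hM φ f s).add (extφ_spec hM φ f t))

theorem extφ_smul (hU : IsAffineOpen U) (hM : QC M U) (φ : Γ(M, U) ≃ₗ[Γ(X, U)] Γ(N, U))
    (f : Γ(X, U)) (r : Γ(X, X.basicOpen f))
    (s : Γ(M, X.basicOpen f)) : extφ hM φ f (r • s) = r • extφ hM φ f s :=
  extφ_eq hM φ f ((extφ_spec hM φ f s).smul hU r)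

theorem extφ_symm (hM : QC M U) (hN : QC N U) (φ : Γ(M, U) ≃ₗ[Γ(X, U)] Γ(N, U)) (f : Γ(X, U))
    (s : Γ(M, X.basicOpen f)) : extφ hN φ.symm f (extφ hM φ f s) = s :=
  extφ_eq hN φ.symm f (extφ_spec hM φ f s).symm

theorem extφ_symm' (hM : QC M U) (hN : QC N U) (φ : Γ(M, U) ≃ₗ[Γ(X, U)] Γ(N, U)) (f : Γ(X, U))
    (s : Γ(N, X.basicOpen f)) : extφ hM φ f (extφ hN φ.symm f s) = s :=
  extφ_eq hM φ f (extφ_spec hN φ.symm f s).symm

theorem extφ_bijective (hM : QC M U) (hN : QC N U) (φ : Γ(M, U) ≃ₗ[Γ(X, U)] Γ(N, U))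
    (f : Γ(X, U)) : Function.Bijective (extφ hM φ f) :=
  Function.bijective_iff_has_inverse.2 ⟨_, extφ_symm hM hN φ f, extφ_symm' hM hN φ f⟩

theorem extφ_restrict {A : X.Opens} (hAU : A ≤ U) (hM : QC M U) (hMA : QC M A)
    (φ : Γ(M, U) ≃ₗ[Γ(X, U)] Γ(N, U)) (φA : Γ(M, A) ≃ₗ[Γ(X, A)] Γ(N, A))
    (hφ : ∀ m, φA (rs M hAU m) = rs N hAU (φ m)) (f : Γ(X, U)) (g : Γ(X, A))
    (hgf : X.basicOpen g ≤ X.basicOpen f) (s : Γ(M, X.basicOpen f)) :
    extφ hMA φA g (rs M hgf s) = rs N hgf (extφ hM φ f s) :=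
  extφ_eq hMA φA g ((extφ_spec hM φ f s).restrict hAU hMA hφ hgf)

/-- on the whole chart it is `φ` -/
theorem extφ_res (hM : QC M U) (φ : Γ(M, U) ≃ₗ[Γ(X, U)] Γ(N, U)) (f : Γ(X, U)) (m : Γ(M, U)) :
    extφ hM φ f (rs M (X.basicOpen_le f) m) = rs N (X.basicOpen_le f) (φ m) :=
  extφ_eq hM φ f ⟨0, m, by rw [pow_zero, one_smul], by rw [pow_zero, one_smul]⟩

section two
variable (U V)

/-- the basis of `X = U ∪ V` consisting of basic opens of `U` and `V` -/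
noncomputable def BB : Γ(X, U) ⊕ Γ(X, V) → Opens X :=
  Sum.elim (fun f => X.basicOpen f) (fun g => X.basicOpen g)

variable {U V}

theorem BB_isBasis (hU : IsAffineOpen U) (hV : IsAffineOpen V) (hUV : U ⊔ V = ⊤) :
    Opens.IsBasis (Set.range (BB (X := X) U V)) := by
  rw [Opens.isBasis_iff_nbhd]
  intro O x hx
  have hx2 : x ∈ U ⊔ V := by rw [hUV]; trivial
  rcases hx2 with hx2 | hx2
  · obtain ⟨f, hf, hxf⟩ := hU.exists_basicOpen_le (V := O) ⟨x, hx⟩ hx2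
    exact ⟨X.basicOpen f, ⟨Sum.inl f, rfl⟩, hxf, hf⟩
  · obtain ⟨f, hf, hxf⟩ := hV.exists_basicOpen_le (V := O) ⟨x, hx⟩ hx2
    exact ⟨X.basicOpen f, ⟨Sum.inr f, rfl⟩, hxf, hf⟩

variable (hU : IsAffineOpen U) (hV : IsAffineOpen V) (hUV : U ⊔ V = ⊤)
  (hMU : QC M U) (hMV : QC M V) (hMW : QC M (U ⊓ V))
  (hNU : QC N U) (hNV : QC N V) (hNW : QC N (U ⊓ V))
  (φU : Γ(M, U) ≃ₗ[Γ(X, U)] Γ(N, U)) (φV : Γ(M, V) ≃ₗ[Γ(X, V)] Γ(N, V))
  (φW : Γ(M, U ⊓ V) ≃ₗ[Γ(X, U ⊓ V)] Γ(N, U ⊓ V))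
  (h1 : ∀ m, φW (rs M inf_le_left m) = rs N inf_le_left (φU m))
  (h2 : ∀ m, φW (rs M inf_le_right m) = rs N inf_le_right (φV m))

/-- the map on basic opens -/
noncomputable def bmap : ∀ b : Γ(X, U) ⊕ Γ(X, V), Γ(M, BB U V b) → Γ(N, BB U V b)
  | Sum.inl f => extφ hMU φU f
  | Sum.inr g => extφ hMV φV g

theorem bmap_add (b : Γ(X, U) ⊕ Γ(X, V)) (s t : Γ(M, BB U V b)) :
    bmap hMU hMV φU φV b (s + t) = bmap hMU hMV φU φV b s + bmap hMU hMV φU φV b t := by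
  rcases b with f | g
  · exact extφ_add hMU φU f s t
  · exact extφ_add hMV φV g s t

include hU hV in
theorem bmap_smul (b : Γ(X, U) ⊕ Γ(X, V)) (r : Γ(X, BB U V b)) (s : Γ(M, BB U V b)) :
    bmap hMU hMV φU φV b (r • s) = r • bmap hMU hMV φU φV b s := by
  rcases b with f | g
  · exact extφ_smul hU hMU φU f r s
  · exact extφ_smul hV hMV φV g r s

include hMW h1 h2 in
theorem mixed (f : Γ(X, U)) (g : Γ(X, V)) (h : X.basicOpen f ≤ X.basicOpen g)
    (s : Γ(M, X.basicOpen g)) :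
    extφ hMU φU f (rs M h s) = rs N h (extφ hMV φV g s) := by
  have hf : X.basicOpen f ≤ U ⊓ V := le_inf (X.basicOpen_le f) (h.trans (X.basicOpen_le g))
  have he : X.basicOpen (ro (inf_le_left : U ⊓ V ≤ U) f) = X.basicOpen f :=
    (X.basicOpen_res f (homOfLE (inf_le_left : U ⊓ V ≤ U)).op).trans (inf_eq_right.2 hf)
  have e1 := extφ_restrict inf_le_left hMU hMW φU φW h1 f (ro inf_le_left f) he.le
    (rs M h s)
  have e2 := extφ_restrict inf_le_right hMV hMW φV φW h2 g (ro inf_le_left f) (he.le.trans h) s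
  rw [rs_rs] at e1
  apply rs_inj_of_le N he.le he.ge
  rw [rs_rs]
  exact e1.symm.trans e2

include hMW h1 h2 in
theorem mixed' (f : Γ(X, V)) (g : Γ(X, U)) (h : X.basicOpen f ≤ X.basicOpen g)
    (s : Γ(M, X.basicOpen g)) :
    extφ hMV φV f (rs M h s) = rs N h (extφ hMU φU g s) := by
  have hf : X.basicOpen f ≤ U ⊓ V := le_inf (h.trans (X.basicOpen_le g)) (X.basicOpen_le f)
  have he : X.basicOpen (ro (inf_le_right : U ⊓ V ≤ V) f) = X.basicOpen f :=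
    (X.basicOpen_res f (homOfLE (inf_le_right : U ⊓ V ≤ V)).op).trans (inf_eq_right.2 hf)
  have e1 := extφ_restrict inf_le_right hMV hMW φV φW h2 f (ro inf_le_right f) he.le
    (rs M h s)
  have e2 := extφ_restrict inf_le_left hMU hMW φU φW h1 g (ro inf_le_right f) (he.le.trans h) s
  rw [rs_rs] at e1
  apply rs_inj_of_le N he.le he.ge
  rw [rs_rs]
  exact e1.symm.trans e2

include hMW h1 h2 in
theorem bmap_res (b b' : Γ(X, U) ⊕ Γ(X, V)) (h : BB U V b ≤ BB U V b') (s : Γ(M, BB U V b')) :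
    bmap hMU hMV φU φV b (rs M h s) = rs N h (bmap hMU hMV φU φV b' s) := by
  rcases b with f | f <;> rcases b' with g | g
  · exact extφ_restrict (le_refl U) hMU hMU φU φU (fun m => by rw [rs_self, rs_self]) g f h s
  · exact mixed hMU hMV hMW φU φV φW h1 h2 f g h s
  · exact mixed' hMU hMV hMW φU φV φW h1 h2 f g h s
  · exact extφ_restrict (le_refl V) hMV hMV φV φV (fun m => by rw [rs_self, rs_self]) g f h s

/-- the natural transformation on the basis -/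
noncomputable def bnat : (inducedFunctor (BB U V)).op ⋙ M.presheaf ⟶
    (inducedFunctor (BB U V)).op ⋙ (⟨N.presheaf, N.isSheaf⟩ : TopCat.Sheaf Ab X).1 where
  app b := AddCommGrpCat.ofHom
    (AddMonoidHom.mk' (bmap hMU hMV φU φV b.unop) (bmap_add hMU hMV φU φV b.unop))
  naturality b b' i := by
    ext s
    exact bmap_res hMU hMV hMW φU φV φW h1 h2 b'.unop b.unop (leOfHom i.unop.hom) s

/-- the natural transformation -/
noncomputable def nat : M.presheaf ⟶ N.presheaf :=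
  TopCat.Sheaf.restrictHomEquivHom M.presheaf (⟨N.presheaf, N.isSheaf⟩ : TopCat.Sheaf Ab X)
    (BB_isBasis hU hV hUV) (bnat hMU hMV hMW φU φV φW h1 h2)

theorem nat_app (b : Γ(X, U) ⊕ Γ(X, V)) (s : Γ(M, BB U V b)) :
    ((nat hU hV hUV hMU hMV hMW φU φV φW h1 h2).app (op (BB U V b))).hom s =
      bmap hMU hMV φU φV b s := by
  have := TopCat.Sheaf.extend_hom_app M.presheaf (⟨N.presheaf, N.isSheaf⟩ : TopCat.Sheaf Ab X)
    (BB_isBasis hU hV hUV) (bnat hMU hMV hMW φU φV φW h1 h2) b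
  exact CategoryTheory.congr_fun this s

theorem nat_smul (O : X.Opens) (a : Γ(X, O)) (s : Γ(M, O)) :
    ((nat hU hV hUV hMU hMV hMW φU φV φW h1 h2).app (op O)).hom (a • s) =
      a • ((nat hU hV hUV hMU hMV hMW φU φV φW h1 h2).app (op O)).hom s := by
  set α := nat hU hV hUV hMU hMV hMW φU φV φW h1 h2 with hα
  have hnat : ∀ {O O' : X.Opens} (h : O' ≤ O) (s : Γ(M, O)),
      (α.app (op O')).hom (rs M h s) = rs N h ((α.app (op O)).hom s) := fun h s =>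
    CategoryTheory.congr_fun (α.naturality (homOfLE h).op) s
  apply eq_of_locally N (ι := {b : Γ(X, U) ⊕ Γ(X, V) // BB U V b ≤ O}) (fun b => BB U V b.1)
    (fun b => b.2)
  · intro x hx
    obtain ⟨_, ⟨b, rfl⟩, hb, hbO⟩ := Opens.isBasis_iff_nbhd.1 (BB_isBasis hU hV hUV) hx
    exact ⟨⟨b, hbO⟩, hb⟩
  · rintro ⟨b, hb⟩
    rw [← hnat hb, rs_smul, rs_smul, ← hnat hb, hα,
      nat_app hU hV hUV hMU hMV hMW φU φV φW h1 h2 b, nat_app hU hV hUV hMU hMV hMW φU φV φW h1 h2 b]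
    exact bmap_smul hU hV hMU hMV φU φV b _ _

/-- the morphism -/
noncomputable def homOfCharts : M ⟶ N :=
  homOfNat (nat hU hV hUV hMU hMV hMW φU φV φW h1 h2)
    (nat_smul hU hV hUV hMU hMV hMW φU φV φW h1 h2)

include hNU hNV in
theorem isIso_homOfCharts : IsIso (homOfCharts hU hV hUV hMU hMV hMW φU φV φW h1 h2) := by
  rw [← isIso_iff_of_reflects_iso _ (Scheme.Modules.toPresheaf X)]
  have h3 : (Scheme.Modules.toPresheaf X).map
      (homOfCharts hU hV hUV hMU hMV hMW φU φV φW h1 h2) =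
      nat hU hV hUV hMU hMV hMW φU φV φW h1 h2 := rfl
  rw [h3]
  let F : TopCat.Sheaf Ab X := ⟨M.presheaf, M.isSheaf⟩
  let G : TopCat.Sheaf Ab X := ⟨N.presheaf, N.isSheaf⟩
  let α : F ⟶ G := ⟨nat hU hV hUV hMU hMV hMW φU φV φW h1 h2⟩
  have : IsIso α := by
    apply TopCat.Sheaf.isIso_iff_isIso_basis (BB_isBasis hU hV hUV)
    intro b
    rw [ConcreteCategory.isIso_iff_bijective]
    have h4 : (fun s => (α.hom.app (op (BB U V b))).hom s) = bmap hMU hMV φU φV b := by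
      funext s
      exact nat_app hU hV hUV hMU hMV hMW φU φV φW h1 h2 b s
    change Function.Bijective (fun s => (α.hom.app (op (BB U V b))).hom s)
    rw [h4]
    rcases b with f | g
    · exact extφ_bijective hMU hNU φU f
    · exact extφ_bijective hMV hNV φV g
  have h5 : IsIso ((TopCat.Sheaf.forget Ab X).map α) := inferInstance
  exact h5

include hU hV hUV hMU hMV hMW hNU hNV h1 h2 in
/-- (Q5) isomorphisms on `U`, `V` which agree on `U ∩ V` glue to an isomorphism -/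
theorem nonempty_iso_of_charts : Nonempty (M ≅ N) := by
  have := isIso_homOfCharts hU hV hUV hMU hMV hMW hNU hNV φU φV φW h1 h2
  exact ⟨asIso (homOfCharts hU hV hUV hMU hMV hMW φU φV φW h1 h2)⟩

end two

end Fermat.Agent.JE3
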