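import Fermat.Agent.JE3.Prod

set_option autoImplicit false

/-! S25 block E3, (Q6): products of line bundles over affine opens. -/

universe u

open CategoryTheory AlgebraicGeometry TopologicalSpace Opposite TensorProduct
open Fermat.Agent.JE (ro rs rs_rs ro_ro ro_self rs_self rs_smul rs_sep rs_glue basicOpen_ro
  LocFree pow_smul_eq_zero exists_pow_smul gen_iff gen_rs gen_exists_eq gen_eq_zero)
open Fermat.Agent.JPb (Gen)

namespace Fermat.Agent.JE3

variable {X : Scheme.{u}} {M N P : X.Modules} {U : X.Opens}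

/-- a generator near `x` which comes from a section over the affine open `U` -/
theorem exists_gen_section (hU : IsAffineOpen U) (hM : LocFree M U) {x : X} (hx : x ∈ U) :
    ∃ (f : Γ(X, U)) (m : Γ(M, U)), x ∈ X.basicOpen f ∧
      Gen M (X.basicOpen f) (rs M (X.basicOpen_le f) m) := by
  obtain ⟨V, hxV, e, he⟩ := hM x hx
  obtain ⟨f, hfV, hxf⟩ := hU.exists_basicOpen_le (V := V) ⟨x, hxV⟩ hx
  obtain ⟨n, m, hm⟩ := exists_pow_smul hU hM f (rs M hfV e)
  refine ⟨f, m, hxf, ?_⟩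
  rw [hm]
  exact gen_unit_smul (gen_rs he hfV) ((isUnit_ro_basicOpen f (le_refl _)).pow n)

/-- simultaneous version -/
theorem exists_gen_section₂ (hU : IsAffineOpen U) (hM : LocFree M U) (hN : LocFree N U) {x : X}
    (hx : x ∈ U) :
    ∃ (f : Γ(X, U)) (m : Γ(M, U)) (n : Γ(N, U)), x ∈ X.basicOpen f ∧
      Gen M (X.basicOpen f) (rs M (X.basicOpen_le f) m) ∧
      Gen N (X.basicOpen f) (rs N (X.basicOpen_le f) n) := by
  obtain ⟨f, m, hf, hm⟩ := exists_gen_section hU hM hx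
  obtain ⟨g, n, hg, hn⟩ := exists_gen_section hU hN hx
  have h1 : X.basicOpen (f * g) ≤ X.basicOpen f := by
    rw [Scheme.basicOpen_mul]; exact inf_le_left
  have h2 : X.basicOpen (f * g) ≤ X.basicOpen g := by
    rw [Scheme.basicOpen_mul]; exact inf_le_right
  refine ⟨f * g, m, n, ?_, ?_, ?_⟩
  · rw [Scheme.basicOpen_mul]; exact ⟨hf, hg⟩
  · have := gen_rs hm h1
    rwa [rs_rs] at this
  · have := gen_rs hn h2
    rwa [rs_rs] at this

/-- functions on `D(f)` are fractions -/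
theorem exists_ro_eq (hU : IsAffineOpen U) (f : Γ(X, U)) (a : Γ(X, X.basicOpen f)) :
    ∃ (k : ℕ) (b : Γ(X, U)), ro (X.basicOpen_le f) b = ro (X.basicOpen_le f) f ^ k * a := by
  have := hU.isLocalization_basicOpen f
  obtain ⟨b, ⟨_, k, rfl⟩, hb⟩ := IsLocalization.exists_mk'_eq (Submonoid.powers f) a
  refine ⟨k, b, ?_⟩
  rw [IsLocalization.mk'_eq_iff_eq_mul] at hb
  have h3 : ro (X.basicOpen_le f) b = a * ro (X.basicOpen_le f) (f ^ k) := hb
  rw [h3, map_pow, mul_comm]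

theorem ro_eq_zero (hU : IsAffineOpen U) (f : Γ(X, U)) {a : Γ(X, U)}
    (ha : ro (X.basicOpen_le f) a = 0) : ∃ k : ℕ, f ^ k * a = 0 := by
  have := hU.isLocalization_basicOpen f
  have h5 : algebraMap Γ(X, U) Γ(X, X.basicOpen f) a = 0 := ha
  rw [IsLocalization.map_eq_zero_iff (Submonoid.powers f)] at h5
  obtain ⟨⟨_, l, rfl⟩, hl⟩ := h5
  exact ⟨l, hl⟩

/-- sections are fractions with respect to a generator on `D(f)` -/
theorem exists_frac (hU : IsAffineOpen U) (hM : LocFree M U) {f : Γ(X, U)} {m : Γ(M, U)}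
    (hm : Gen M (X.basicOpen f) (rs M (X.basicOpen_le f) m)) (s : Γ(M, U)) :
    ∃ (k : ℕ) (a : Γ(X, U)), f ^ k • s = a • m := by
  obtain ⟨b, hb⟩ := gen_exists_eq hm le_rfl (rs M (X.basicOpen_le f) s)
  rw [rs_self] at hb
  obtain ⟨k, a, ha⟩ := exists_ro_eq hU f b
  have h1 : rs M (X.basicOpen_le f) (f ^ k • s - a • m) = 0 := by
    rw [map_sub, rs_smul, rs_smul, ha, hb, map_pow, mul_smul, sub_self]
  obtain ⟨l, hl⟩ := pow_smul_eq_zero hU hM f _ h1
  refine ⟨l + k, f ^ l * a, ?_⟩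
  rw [smul_sub, sub_eq_zero] at hl
  rw [pow_add, mul_smul, hl, mul_smul]

theorem gen_smul_eq_zero (hU : IsAffineOpen U) {f : Γ(X, U)} {m : Γ(M, U)}
    (hm : Gen M (X.basicOpen f) (rs M (X.basicOpen_le f) m)) {a : Γ(X, U)} (h : a • m = 0) :
    ∃ k : ℕ, f ^ k * a = 0 := by
  apply ro_eq_zero hU
  have h1 := congrArg (rs M (X.basicOpen_le f)) h
  rw [rs_smul, map_zero] at h1
  apply gen_eq_zero hm le_rfl
  rw [rs_self]
  exact h1

/-- partition of unity argument -/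
theorem mem_of_pow_smul_mem (hU : IsAffineOpen U) {Q : Type*} [AddCommGroup Q]
    [Module Γ(X, U) Q] (Q' : Submodule Γ(X, U) Q) (q : Q)
    (h : ∀ x ∈ U, ∃ f : Γ(X, U), x ∈ X.basicOpen f ∧ ∃ n : ℕ, f ^ n • q ∈ Q') : q ∈ Q' := by
  choose! f hf hn using h
  have hs : Ideal.span (f '' U) = ⊤ := by
    rw [← hU.self_le_iSup_basicOpen_iff]
    intro x hx
    exact Opens.mem_iSup.2 ⟨⟨f x, x, hx, rfl⟩, hf x hx⟩
  refine Submodule.mem_of_span_eq_top_of_smul_pow_mem Q' _ hs q ?_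
  rintro ⟨_, x, hx, rfl⟩
  exact hn x hx

namespace Prod3

variable (D : Prod3 M N P)

/-- the sections of the product over an affine open are sums of products -/
theorem span_eq_top (hU : IsAffineOpen U) :
    Submodule.span Γ(X, U) {p : Γ(P, U) | ∃ (m : Γ(M, U)) (n : Γ(N, U)), p = D.β m n} = ⊤ := by
  rw [Submodule.eq_top_iff']
  intro p
  refine mem_of_pow_smul_mem hU _ p fun x hx => ?_
  obtain ⟨f, m, n, hxf, hm, hn⟩ := exists_gen_section₂ hU (D.locFree_left.mono le_top)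
    (D.locFree_right.mono le_top) hx
  have hβ := D.gen_β hm hn
  rw [← D.β_res] at hβ
  obtain ⟨k, a, h⟩ := exists_frac hU (D.locFree.mono le_top) hβ p
  refine ⟨f, hxf, k, ?_⟩
  rw [h]
  exact Submodule.smul_mem _ _ (Submodule.subset_span ⟨m, n, rfl⟩)

theorem smul_mem_closure (a : Γ(X, U)) {p : Γ(P, U)}
    (hp : p ∈ AddSubmonoid.closure {p : Γ(P, U) | ∃ (m : Γ(M, U)) (n : Γ(N, U)), p = D.β m n}) :
    a • p ∈ AddSubmonoid.closure
      {p : Γ(P, U) | ∃ (m : Γ(M, U)) (n : Γ(N, U)), p = D.β m n} := by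
  induction hp using AddSubmonoid.closure_induction with
  | mem p hp =>
    obtain ⟨m, n, rfl⟩ := hp
    exact AddSubmonoid.subset_closure ⟨a • m, n, (D.β_smul_left a m n).symm⟩
  | zero => rw [smul_zero]; exact zero_mem _
  | add p q _ _ hp hq => rw [smul_add]; exact add_mem hp hq

theorem closure_eq_top (hU : IsAffineOpen U) :
    AddSubmonoid.closure {p : Γ(P, U) | ∃ (m : Γ(M, U)) (n : Γ(N, U)), p = D.β m n} = ⊤ := by
  rw [eq_top_iff]
  intro p _
  have hp : p ∈ Submodule.span Γ(X, U)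
      {p : Γ(P, U) | ∃ (m : Γ(M, U)) (n : Γ(N, U)), p = D.β m n} := by
    rw [D.span_eq_top hU]; trivial
  induction hp using Submodule.span_induction with
  | mem p hp => exact AddSubmonoid.subset_closure hp
  | zero => exact zero_mem _
  | add p q _ _ hp hq => exact add_mem (hp trivial) (hq trivial)
  | smul a p _ hp => exact D.smul_mem_closure a (hp trivial)

/-- `Γ(M, U) ⊗ Γ(N, U) → Γ(P, U)` -/
noncomputable def tens (U : X.Opens) : Γ(M, U) ⊗[Γ(X, U)] Γ(N, U) →ₗ[Γ(X, U)] Γ(P, U) :=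
  TensorProduct.lift (D.bil U)

@[simp] theorem tens_tmul (m : Γ(M, U)) (n : Γ(N, U)) :
    D.tens U (m ⊗ₜ[Γ(X, U)] n) = D.β m n := rfl

theorem tens_surjective (hU : IsAffineOpen U) : Function.Surjective (D.tens U) := by
  rw [← LinearMap.range_eq_top, ← top_le_iff, ← D.span_eq_top hU, Submodule.span_le]
  rintro _ ⟨m, n, rfl⟩
  exact ⟨m ⊗ₜ n, rfl⟩

include D in
theorem exists_frac_tens (hU : IsAffineOpen U) {f : Γ(X, U)} {m : Γ(M, U)} {n : Γ(N, U)}
    (hm : Gen M (X.basicOpen f) (rs M (X.basicOpen_le f) m))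
    (hn : Gen N (X.basicOpen f) (rs N (X.basicOpen_le f) n))
    (x : Γ(M, U) ⊗[Γ(X, U)] Γ(N, U)) :
    ∃ (k : ℕ) (a : Γ(X, U)), f ^ k • x = a • (m ⊗ₜ[Γ(X, U)] n) := by
  induction x using TensorProduct.induction_on with
  | zero => exact ⟨0, 0, by rw [smul_zero, zero_smul]⟩
  | tmul s t =>
    obtain ⟨k, a, h1⟩ := exists_frac hU (D.locFree_left.mono le_top) hm s
    obtain ⟨l, b, h2⟩ := exists_frac hU (D.locFree_right.mono le_top) hn t
    refine ⟨k + l, a * b, ?_⟩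
    calc f ^ (k + l) • (s ⊗ₜ[Γ(X, U)] t) = (f ^ k • s) ⊗ₜ[Γ(X, U)] (f ^ l • t) := by
          rw [TensorProduct.smul_tmul_smul, pow_add]
      _ = (a • m) ⊗ₜ[Γ(X, U)] (b • n) := by rw [h1, h2]
      _ = (a * b) • (m ⊗ₜ[Γ(X, U)] n) := TensorProduct.smul_tmul_smul _ _ _ _
  | add x y hx hy =>
    obtain ⟨k, a, h1⟩ := hx
    obtain ⟨l, b, h2⟩ := hy
    refine ⟨k + l, f ^ l * a + f ^ k * b, ?_⟩
    rw [smul_add, pow_add, mul_comm (f ^ k), mul_smul, h1, mul_comm (f ^ l), mul_smul, h2,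
      add_smul, mul_smul, mul_smul]

theorem tens_injective (hU : IsAffineOpen U) : Function.Injective (D.tens U) := by
  rw [injective_iff_map_eq_zero]
  intro x hx
  rw [← Submodule.mem_bot Γ(X, U)]
  refine mem_of_pow_smul_mem hU _ x fun y hy => ?_
  obtain ⟨f, m, n, hyf, hm, hn⟩ := exists_gen_section₂ hU (D.locFree_left.mono le_top)
    (D.locFree_right.mono le_top) hy
  obtain ⟨k, a, h⟩ := D.exists_frac_tens hU hm hn x
  have hβ := D.gen_β hm hn
  rw [← D.β_res] at hβ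
  have h1 := congrArg (D.tens U) h
  rw [map_smul, hx, smul_zero, map_smul, tens_tmul] at h1
  obtain ⟨l, hl⟩ := gen_smul_eq_zero hU hβ h1.symm
  refine ⟨f, hyf, l + k, ?_⟩
  rw [pow_add, mul_smul, h, ← mul_smul, hl, zero_smul]
  exact Submodule.zero_mem _

/-- `Γ(M, U) ⊗ Γ(N, U) ≃ Γ(P, U)` for `U` affine -/
noncomputable def tensEquiv (hU : IsAffineOpen U) :
    Γ(M, U) ⊗[Γ(X, U)] Γ(N, U) ≃ₗ[Γ(X, U)] Γ(P, U) :=
  LinearEquiv.ofBijective (D.tens U) ⟨D.tens_injective hU, D.tens_surjective hU⟩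

@[simp] theorem tensEquiv_tmul (hU : IsAffineOpen U) (m : Γ(M, U)) (n : Γ(N, U)) :
    D.tensEquiv hU (m ⊗ₜ[Γ(X, U)] n) = D.β m n := rfl

section twist

variable (hU : IsAffineOpen U) (γ : Γ(N, U) →ₗ[Γ(X, U)] Γ(X, U))

/-- the map `p = Σ m n ↦ Σ γ(n) m` -/
noncomputable def twist : Γ(P, U) →ₗ[Γ(X, U)] Γ(M, U) :=
  (TensorProduct.lift ((LinearMap.lsmul Γ(X, U) Γ(M, U)).comp γ).flip).comp
    (D.tensEquiv hU).symm.toLinearMap

theorem twist_β (m : Γ(M, U)) (n : Γ(N, U)) : D.twist hU γ (D.β m n) = γ n • m := by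
  unfold twist
  rw [LinearMap.comp_apply]
  have : (D.tensEquiv hU).symm (D.β m n) = m ⊗ₜ[Γ(X, U)] n := by
    rw [LinearEquiv.symm_apply_eq]; rfl
  erw [this]
  rfl

theorem twist_injective (hγ : Function.Injective γ) : Function.Injective (D.twist hU γ) := by
  rw [injective_iff_map_eq_zero]
  intro p hp
  rw [← Submodule.mem_bot Γ(X, U)]
  refine mem_of_pow_smul_mem hU _ p fun y hy => ?_
  obtain ⟨f, m, n, hyf, hm, hn⟩ := exists_gen_section₂ hU (D.locFree_left.mono le_top)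
    (D.locFree_right.mono le_top) hy
  have hβ := D.gen_β hm hn
  rw [← D.β_res] at hβ
  obtain ⟨k, a, h⟩ := exists_frac hU (D.locFree.mono le_top) hβ p
  have h1 := congrArg (D.twist hU γ) h
  rw [map_smul, hp, smul_zero, map_smul, D.twist_β, ← mul_smul] at h1
  obtain ⟨l, hl⟩ := gen_smul_eq_zero hU hm h1.symm
  have h2 : γ ((f ^ l * a) • n) = 0 := by
    rw [map_smul, smul_eq_mul, mul_assoc]
    exact hl
  have h3 : (f ^ l * a) • n = 0 := hγ (h2.trans (map_zero γ).symm)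
  obtain ⟨j, hj⟩ := gen_smul_eq_zero hU hn h3
  refine ⟨f, hyf, j + l + k, ?_⟩
  rw [pow_add, mul_smul, h, ← mul_smul, pow_add, mul_assoc, hj, zero_smul]
  exact Submodule.zero_mem _

/-- the image of the sections over a larger affine open -/
theorem twist_image {O : X.Opens} (hO : IsAffineOpen O) (h : U ≤ O) :
    (D.twist hU γ).toAddMonoidHom '' (Set.range (rs P h)) =
      (AddSubmonoid.closure {x : Γ(M, U) | ∃ (m : Γ(M, O)) (n : Γ(N, O)),
        x = γ (rs N h n) • rs M h m} : AddSubmonoid Γ(M, U)) := by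
  apply Set.Subset.antisymm
  · rintro _ ⟨_, ⟨p, rfl⟩, rfl⟩
    have hp : p ∈ AddSubmonoid.closure
        {p : Γ(P, O) | ∃ (m : Γ(M, O)) (n : Γ(N, O)), p = D.β m n} := by
      rw [D.closure_eq_top hO]; trivial
    induction hp using AddSubmonoid.closure_induction with
    | mem p hp =>
      obtain ⟨m, n, rfl⟩ := hp
      refine AddSubmonoid.subset_closure ⟨m, n, ?_⟩
      rw [D.β_res]
      exact D.twist_β hU γ _ _
    | zero => rw [map_zero, map_zero]; exact zero_mem _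
    | add p q _ _ hp hq => rw [map_add, map_add]; exact add_mem hp hq
  · rintro x hx
    replace hx : x ∈ AddSubmonoid.closure {x : Γ(M, U) | ∃ (m : Γ(M, O)) (n : Γ(N, O)),
        x = γ (rs N h n) • rs M h m} := hx
    induction hx using AddSubmonoid.closure_induction with
    | mem x hx =>
      obtain ⟨m, n, rfl⟩ := hx
      exact ⟨_, ⟨D.β m n, rfl⟩, by
        rw [D.β_res]
        exact D.twist_β hU γ _ _⟩
    | zero => exact ⟨0, ⟨0, map_zero _⟩, map_zero _⟩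
    | add x y _ _ hx1 hy1 =>
      obtain ⟨_, ⟨p, rfl⟩, hp⟩ := hx1
      obtain ⟨_, ⟨q, rfl⟩, hq⟩ := hy1
      exact ⟨_, ⟨p + q, rfl⟩, by rw [map_add, map_add, hp, hq]⟩

end twist

end Prod3

end Fermat.Agent.JE3
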