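import Fermat.Agent.JPC.Defs

set_option autoImplicit false

/-! S25 block E3: the tensor product relation for line data. -/

universe u

open TensorProduct

namespace Fermat.Agent.JE3

open Fermat.Agent.JPC

variable {k : Type u} [Field k] {X : TwoChart k} {B : Type u} [CommRing B] [Algebra k B]

/-- a bilinear map `L × N → L'` which exhibits `L'` as the tensor product of `L` and `N` -/
structure TensData (L N L' : PreLD X B) where
  μ : L.M → N.M → L'.M
  add_left : ∀ m m' n, μ (m + m') n = μ m n + μ m' n
  add_right : ∀ m n n', μ m (n + n') = μ m n + μ m n'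
  smulB_left : ∀ (b : B) m n, μ (b • m) n = b • μ m n
  smulB_right : ∀ (b : B) m n, μ m (b • n) = b • μ m n
  smulA_left : ∀ (a : X.A) m n, μ (a • m) n = a • μ m n
  smulA_right : ∀ (a : X.A) m n, μ m (a • n) = a • μ m n
  span0 : Submodule.span B {x | ∃ m ∈ L.M0, ∃ n ∈ N.M0, x = μ m n} = L'.M0
  span1 : Submodule.span B {x | ∃ m ∈ L.M1, ∃ n ∈ N.M1, x = μ m n} = L'.M1

/-- `L'` is the tensor product of `L` and `N` -/
def Tens (L N L' : PreLD X B) : Prop := Nonempty (TensData L N L')

end Fermat.Agent.JE3
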