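import Fermat.Agent.JE3.EA
import Fermat.Agent.JE3.Tens
import Fermat.Agent.JE3.TensDef
import Fermat.Agent.JTw.Defs

set_option autoImplicit false

/-! S25 block E3, (E-e): line data of a product. -/

universe u

open CategoryTheory CategoryTheory.Limits AlgebraicGeometry TopologicalSpace Opposite
open NeronModelInfra AlgebraicGeometry.RelPicard
open scoped TensorProduct

namespace Fermat.Agent.JE3

open Fermat.Agent.JPC Fermat.Agent.JKL Fermat.Agent.JCB Fermat.Agent.JE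
open Fermat.Agent.JPb (Gen)

noncomputable section

section alg

variable {k : Type u} [Field k] {X : TwoChart k} {B : Type u} [CommRing B] [Algebra k B]
  {L N L' : PreLD X B}

namespace TensData

variable (T : TensData L N L')

theorem zero_left (n : N.M) : T.μ 0 n = 0 := by
  have := T.add_left 0 0 n
  rw [add_zero] at this
  exact (left_eq_add.1 this)

theorem zero_right (m : L.M) : T.μ m 0 = 0 := by
  have := T.add_right m 0 0
  rw [add_zero] at this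
  exact (left_eq_add.1 this)

theorem smul_left (s : B ⊗[k] X.A) (m : L.M) (n : N.M) : T.μ (s • m) n = s • T.μ m n := by
  induction s with
  | zero => rw [zero_smul (B ⊗[k] X.A) m, T.zero_left, zero_smul (B ⊗[k] X.A) (T.μ m n)]
  | tmul b a => rw [PreLD.tmul_smul, PreLD.tmul_smul, T.smulB_left, T.smulA_left]
  | add x y hx hy => rw [add_smul, T.add_left, hx, hy, add_smul]

theorem smul_right (s : B ⊗[k] X.A) (m : L.M) (n : N.M) : T.μ m (s • n) = s • T.μ m n := by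
  induction s with
  | zero => rw [zero_smul (B ⊗[k] X.A) n, T.zero_right, zero_smul (B ⊗[k] X.A) (T.μ m n)]
  | tmul b a => rw [PreLD.tmul_smul, PreLD.tmul_smul, T.smulB_right, T.smulA_right]
  | add x y hx hy => rw [add_smul, T.add_right, hx, hy, add_smul]

/-- transport along isomorphisms -/
def congr {L₀ N₀ : PreLD X B} (f : L₀.Iso L) (g : N₀.Iso N) : TensData L₀ N₀ L' where
  μ m n := T.μ (f.e m) (g.e n)
  add_left m m' n := by rw [map_add, T.add_left]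
  add_right m n n' := by rw [map_add, T.add_right]
  smulB_left b m n := by rw [map_smul, T.smulB_left]
  smulB_right b m n := by rw [map_smul, T.smulB_right]
  smulA_left a m n := by rw [f.smul, T.smulA_left]
  smulA_right a m n := by rw [g.smul, T.smulA_right]
  span0 := by
    rw [← T.span0]
    congr 1
    ext x
    constructor
    · rintro ⟨m, hm, n, hn, rfl⟩
      refine ⟨f.e m, ?_, g.e n, ?_, rfl⟩
      · rw [← f.map0]; exact ⟨m, hm, rfl⟩
      · rw [← g.map0]; exact ⟨n, hn, rfl⟩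
    · rintro ⟨m, hm, n, hn, rfl⟩
      rw [← f.map0] at hm
      rw [← g.map0] at hn
      obtain ⟨m, hm, rfl⟩ := hm
      obtain ⟨n, hn, rfl⟩ := hn
      exact ⟨m, hm, n, hn, rfl⟩
  span1 := by
    rw [← T.span1]
    congr 1
    ext x
    constructor
    · rintro ⟨m, hm, n, hn, rfl⟩
      refine ⟨f.e m, ?_, g.e n, ?_, rfl⟩
      · rw [← f.map1]; exact ⟨m, hm, rfl⟩
      · rw [← g.map1]; exact ⟨n, hn, rfl⟩
    · rintro ⟨m, hm, n, hn, rfl⟩
      rw [← f.map1] at hm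
      rw [← g.map1] at hn
      obtain ⟨m, hm, rfl⟩ := hm
      obtain ⟨n, hn, rfl⟩ := hn
      exact ⟨m, hm, n, hn, rfl⟩

end TensData

theorem map₂_eq (μ : L.M →ₗ[B] N.M →ₗ[B] L'.M) (P : Submodule B L.M) (Q : Submodule B N.M) :
    Submodule.span B {x | ∃ m ∈ P, ∃ n ∈ Q, x = μ m n} = Submodule.map₂ μ P Q := by
  rw [Submodule.map₂_eq_span_image2]
  congr 1
  ext x
  constructor
  · rintro ⟨m, hm, n, hn, rfl⟩
    exact ⟨m, hm, n, hn, rfl⟩
  · rintro ⟨m, hm, n, hn, rfl⟩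
    exact ⟨m, hm, n, hn, rfl⟩

/-- comparison with helper14's definition -/
theorem tens_iff : Tens L N L' ↔ JTw.Tens L N L' := by
  constructor
  · rintro ⟨T⟩
    refine ⟨LinearMap.mk₂ B T.μ T.add_left T.smulB_left T.add_right T.smulB_right,
      T.smulA_left, T.smulA_right, ?_, ?_⟩
    · rw [← map₂_eq]; exact T.span0
    · rw [← map₂_eq]; exact T.span1
  · rintro ⟨μ, h1, h2, h3, h4⟩
    exact ⟨{
      μ := fun m n => μ m n
      add_left := fun m m' n => by rw [map_add, LinearMap.add_apply]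
      add_right := fun m n n' => map_add _ _ _
      smulB_left := fun b m n => by rw [map_smul, LinearMap.smul_apply]
      smulB_right := fun b m n => map_smul _ _ _
      smulA_left := h1
      smulA_right := h2
      span0 := by rw [← h3, map₂_eq]
      span1 := by rw [← h4, map₂_eq] }⟩

end alg

variable {k : Type u} [Field k] {C : Scheme.{u}} {c : C ⟶ Spec (CommRingCat.of k)}
  {ε : SchemeHomOver (𝟙 (Spec (CommRingCat.of k))) c} {X : TwoChart k} (ch : Chart c ε X)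
  {B : Type u} [CommRing B] [Algebra k B] {Y : Scheme.{u}} {fst : Y ⟶ C}
  {snd : Y ⟶ Spec (CommRingCat.of B)}
  (H : IsPullback fst snd c (Spec.map (CommRingCat.ofHom (algebraMap k B))))
  {𝓜 𝓝 𝓟 : Y.Modules} (hM : LocFree 𝓜 ⊤) (hN : LocFree 𝓝 ⊤) (hP : LocFree 𝓟 ⊤)
  (D : Prod3 𝓜 𝓝 𝓟) {L : PreLD X B} (T : TensData (toLD ch H 𝓜 hM) (toLD ch H 𝓝 hN) L)

/-- the map on the tensor product -/
def θ₀ : Γ(𝓜, fst ⁻¹ᵁ (ch.U ⊓ ch.V)) ⊗[Γ(Y, fst ⁻¹ᵁ (ch.U ⊓ ch.V))]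
    Γ(𝓝, fst ⁻¹ᵁ (ch.U ⊓ ch.V)) →+ L.M :=
  TensorProduct.liftAddHom
    (AddMonoidHom.mk' (fun m => AddMonoidHom.mk' (fun n => T.μ m n) (T.add_right m)) (fun m m' => by
      ext n
      exact T.add_left m m' n)) (fun r m n => by
        obtain ⟨s, rfl⟩ := (muA_bij ch H).2 r
        have h1 := T.smul_left s m n
        have h2 := T.smul_right s m n
        exact (congrArg (fun m => T.μ m n) (toLD_smul ch H hM s m)).symm.trans
          (h1.trans (h2.symm.trans (congrArg (T.μ m) (toLD_smul ch H hN s n)))))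

theorem θ₀_tmul (m : Γ(𝓜, fst ⁻¹ᵁ (ch.U ⊓ ch.V))) (n : Γ(𝓝, fst ⁻¹ᵁ (ch.U ⊓ ch.V))) :
    θ₀ ch H hM hN T (m ⊗ₜ n) = T.μ m n := rfl

/-- the map from the sections of the product -/
def θ₁ : Γ(𝓟, fst ⁻¹ᵁ (ch.U ⊓ ch.V)) →+ L.M :=
  (θ₀ ch H hM hN T).comp (D.tensEquiv (affA ch H)).symm.toLinearMap.toAddMonoidHom

theorem θ₁_β (m : Γ(𝓜, fst ⁻¹ᵁ (ch.U ⊓ ch.V))) (n : Γ(𝓝, fst ⁻¹ᵁ (ch.U ⊓ ch.V))) :
    θ₁ ch H hM hN D T (D.β m n) = T.μ m n := by
  have h : (D.tensEquiv (affA ch H)).symm (D.β m n) = m ⊗ₜ n := by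
    rw [LinearEquiv.symm_apply_eq]; rfl
  exact (congrArg (θ₀ ch H hM hN T) h).trans (θ₀_tmul ch H hM hN T m n)

theorem θ₁_smul (s : B ⊗[k] X.A) (p : Γ(𝓟, fst ⁻¹ᵁ (ch.U ⊓ ch.V))) :
    θ₁ ch H hM hN D T (muA ch H s • p) = s • θ₁ ch H hM hN D T p := by
  have hp : p ∈ AddSubmonoid.closure {p : Γ(𝓟, fst ⁻¹ᵁ (ch.U ⊓ ch.V)) |
      ∃ (m : Γ(𝓜, fst ⁻¹ᵁ (ch.U ⊓ ch.V))) (n : Γ(𝓝, fst ⁻¹ᵁ (ch.U ⊓ ch.V))), p = D.β m n} := by
    rw [D.closure_eq_top (affA ch H)]; trivial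
  induction hp using AddSubmonoid.closure_induction with
  | mem p hp =>
    obtain ⟨m, n, rfl⟩ := hp
    rw [← D.β_smul_left, θ₁_β, θ₁_β]
    exact (congrArg (fun m => T.μ m n) (toLD_smul ch H hM s m)).symm.trans (T.smul_left s m n)
  | zero => rw [smul_zero, map_zero, smul_zero]
  | add p q _ _ hp hq => rw [smul_add, map_add, hp, hq, map_add, smul_add]

/-- the `B ⊗ A`-linear map of line data -/
def θ : (toLD ch H 𝓟 hP).M →ₗ[B ⊗[k] X.A] L.M where
  toFun p := θ₁ ch H hM hN D T p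
  map_add' p q := map_add (θ₁ ch H hM hN D T) p q
  map_smul' s p := (congrArg (θ₁ ch H hM hN D T) (toLD_smul ch H hP s p)).trans
    (θ₁_smul ch H hM hN D T s p)

theorem θ_smulB (b : B) (p : (toLD ch H 𝓟 hP).M) :
    θ ch H hM hN hP D T (b • p) = b • θ ch H hM hN hP D T p := by
  have h := (θ ch H hM hN hP D T).map_smul (b ⊗ₜ 1) p
  rw [PreLD.tmul_smul, PreLD.tmul_smul, one_smul, one_smul] at h
  exact h

theorem θ_smulA (a : X.A) (p : (toLD ch H 𝓟 hP).M) :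
    θ ch H hM hN hP D T (a • p) = a • θ ch H hM hN hP D T p := by
  have h := (θ ch H hM hN hP D T).map_smul ((1 : B) ⊗ₜ a) p
  rw [PreLD.tmul_smul, PreLD.tmul_smul, one_smul, one_smul] at h
  exact h

/-- the `B`-linear map -/
def θB : (toLD ch H 𝓟 hP).M →ₗ[B] L.M where
  toFun := θ ch H hM hN hP D T
  map_add' := map_add _
  map_smul' := θ_smulB ch H hM hN hP D T

theorem θ_map0 : (toLD ch H 𝓟 hP).M0.map (θB ch H hM hN hP D T) = L.M0 := by
  apply le_antisymm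
  · rintro _ ⟨_, ⟨t, rfl⟩, rfl⟩
    have ht : t ∈ AddSubmonoid.closure {p : Γ(𝓟, fst ⁻¹ᵁ ch.U) |
        ∃ (m : Γ(𝓜, fst ⁻¹ᵁ ch.U)) (n : Γ(𝓝, fst ⁻¹ᵁ ch.U)), p = D.β m n} := by
      rw [D.closure_eq_top (aff0 ch H)]; trivial
    induction ht using AddSubmonoid.closure_induction with
    | mem t ht =>
      obtain ⟨m, n, rfl⟩ := ht
      rw [← T.span0]
      refine Submodule.subset_span ⟨rs 𝓜 (leU ch fst) m, ⟨m, rfl⟩, rs 𝓝 (leU ch fst) n, ⟨n, rfl⟩, ?_⟩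
      exact (congrArg (θ₁ ch H hM hN D T) (D.β_res (leU ch fst) m n)).trans
        (θ₁_β ch H hM hN D T _ _)
    | zero =>
      have : θ₁ ch H hM hN D T (rs 𝓟 (leU ch fst) 0) = 0 := by rw [map_zero, map_zero]
      have h2 : θ₁ ch H hM hN D T (rs 𝓟 (leU ch fst) 0) ∈ L.M0 := this ▸ L.M0.zero_mem
      exact h2
    | add p q _ _ hp hq =>
      have : θ₁ ch H hM hN D T (rs 𝓟 (leU ch fst) (p + q)) =
        θ₁ ch H hM hN D T (rs 𝓟 (leU ch fst) p) + θ₁ ch H hM hN D T (rs 𝓟 (leU ch fst) q) := by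
          rw [map_add, map_add]
      have h2 : θ₁ ch H hM hN D T (rs 𝓟 (leU ch fst) (p + q)) ∈ L.M0 :=
        this ▸ L.M0.add_mem hp hq
      exact h2
  · rw [← T.span0, Submodule.span_le]
    rintro _ ⟨_, ⟨m, rfl⟩, _, ⟨n, rfl⟩, rfl⟩
    refine ⟨rs 𝓟 (leU ch fst) (D.β m n), ⟨D.β m n, rfl⟩, ?_⟩
    exact (congrArg (θ₁ ch H hM hN D T) (D.β_res (leU ch fst) m n)).trans
      (θ₁_β ch H hM hN D T _ _)

theorem θ_map1 : (toLD ch H 𝓟 hP).M1.map (θB ch H hM hN hP D T) = L.M1 := by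
  apply le_antisymm
  · rintro _ ⟨_, ⟨t, rfl⟩, rfl⟩
    have ht : t ∈ AddSubmonoid.closure {p : Γ(𝓟, fst ⁻¹ᵁ ch.V) |
        ∃ (m : Γ(𝓜, fst ⁻¹ᵁ ch.V)) (n : Γ(𝓝, fst ⁻¹ᵁ ch.V)), p = D.β m n} := by
      rw [D.closure_eq_top (aff1 ch H)]; trivial
    induction ht using AddSubmonoid.closure_induction with
    | mem t ht =>
      obtain ⟨m, n, rfl⟩ := ht
      rw [← T.span1]
      refine Submodule.subset_span ⟨rs 𝓜 (leV ch fst) m, ⟨m, rfl⟩, rs 𝓝 (leV ch fst) n, ⟨n, rfl⟩, ?_⟩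
      exact (congrArg (θ₁ ch H hM hN D T) (D.β_res (leV ch fst) m n)).trans
        (θ₁_β ch H hM hN D T _ _)
    | zero =>
      have : θ₁ ch H hM hN D T (rs 𝓟 (leV ch fst) 0) = 0 := by rw [map_zero, map_zero]
      have h2 : θ₁ ch H hM hN D T (rs 𝓟 (leV ch fst) 0) ∈ L.M1 := this ▸ L.M1.zero_mem
      exact h2
    | add p q _ _ hp hq =>
      have : θ₁ ch H hM hN D T (rs 𝓟 (leV ch fst) (p + q)) =
        θ₁ ch H hM hN D T (rs 𝓟 (leV ch fst) p) + θ₁ ch H hM hN D T (rs 𝓟 (leV ch fst) q) := by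
          rw [map_add, map_add]
      have h2 : θ₁ ch H hM hN D T (rs 𝓟 (leV ch fst) (p + q)) ∈ L.M1 :=
        this ▸ L.M1.add_mem hp hq
      exact h2
  · rw [← T.span1, Submodule.span_le]
    rintro _ ⟨_, ⟨m, rfl⟩, _, ⟨n, rfl⟩, rfl⟩
    refine ⟨rs 𝓟 (leV ch fst) (D.β m n), ⟨D.β m n, rfl⟩, ?_⟩
    exact (congrArg (θ₁ ch H hM hN D T) (D.β_res (leV ch fst) m n)).trans
      (θ₁_β ch H hM hN D T _ _)

theorem θ_surjective : Function.Surjective (θ ch H hM hN hP D T) := by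
  intro z
  obtain ⟨n, hn⟩ := L.ex0 z
  rw [← θ_map0 ch H hM hN hP D T] at hn
  obtain ⟨p, -, hp⟩ := hn
  refine ⟨(((X.t⁻¹ : X.Aˣ) : X.A) ^ n) • p, ?_⟩
  rw [θ_smulA]
  have h1 : θ ch H hM hN hP D T p = ((X.t : X.A) ^ n) • z := hp
  rw [h1, ← mul_smul, ← mul_pow, Units.inv_mul, one_pow, one_smul]

include D T in
/-- (E-e) -/
theorem nonempty_iso_of_tensData (hL : L.IsLine) : Nonempty ((toLD ch H 𝓟 hP).Iso L) := by
  have := isLine_inv L hL
  have := isLine_inv _ (toLD_isLine ch H hP)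
  have hbij : Function.Bijective (θ ch H hM hN hP D T) :=
    Module.Invertible.bijective_of_surjective (θ_surjective ch H hM hN hP D T)
  exact ⟨{
    e := LinearEquiv.ofBijective (θB ch H hM hN hP D T) hbij
    smul := θ_smulA ch H hM hN hP D T
    map0 := θ_map0 ch H hM hN hP D T
    map1 := θ_map1 ch H hM hN hP D T }⟩

omit T in
include D in
/-- (E-e), final form -/
theorem nonempty_iso_of_tens {L₁ L₂ L₃ : PreLD X B} (h₁ : Nonempty ((toLD ch H 𝓜 hM).Iso L₁))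
    (h₂ : Nonempty ((toLD ch H 𝓝 hN).Iso L₂)) (h₃ : L₃.IsLine) (hT : JTw.Tens L₁ L₂ L₃) :
    Nonempty ((toLD ch H 𝓟 hP).Iso L₃) := by
  obtain ⟨f⟩ := h₁
  obtain ⟨g⟩ := h₂
  obtain ⟨T⟩ := tens_iff.2 hT
  exact nonempty_iso_of_tensData ch H hM hN hP D (T.congr f g) h₃

end

end Fermat.Agent.JE3
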