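import Fermat.Agent.JE3.Sec

set_option autoImplicit false

/-! S25 block E3 (Q5): extension of isomorphisms on affine charts. -/

universe u

open CategoryTheory AlgebraicGeometry TopologicalSpace Opposite
open Fermat.Agent.JE (ro rs rs_rs ro_ro ro_self rs_self rs_smul rs_sep rs_glue basicOpen_ro)

namespace Fermat.Agent.JE3

variable {X : Scheme.{u}}

/-- `Γ(M, D(f)) = Γ(M, U)_f` for all `f`, elementwise. -/
structure QC (M : X.Modules) (U : X.Opens) : Prop where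
  eq0 : ∀ (f : Γ(X, U)) (s : Γ(M, U)), rs M (X.basicOpen_le f) s = 0 → ∃ n : ℕ, f ^ n • s = 0
  lift : ∀ (f : Γ(X, U)) (s : Γ(M, X.basicOpen f)), ∃ (n : ℕ) (m : Γ(M, U)),
    rs M (X.basicOpen_le f) m = ro (X.basicOpen_le f) f ^ n • s

/-- cancel a power of `f` on an open set where `f` is invertible -/
theorem cancel_pow {M : X.Modules} {U V : X.Opens} (f : Γ(X, U)) (h : V ≤ X.basicOpen f) (n : ℕ)
    {s t : Γ(M, V)} (hst : ro (h.trans (X.basicOpen_le f)) f ^ n • s =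
      ro (h.trans (X.basicOpen_le f)) f ^ n • t) : s = t := by
  have := (isUnit_ro_basicOpen f h).pow n
  obtain ⟨v, hv⟩ := this
  rw [← hv] at hst
  have h2 := congrArg (fun x => ((v⁻¹ : Γ(X, V)ˣ) : Γ(X, V)) • x) hst
  simpa only [← mul_smul, Units.inv_mul, one_smul] using h2

section ext
variable {M N : X.Modules} {U : X.Opens}

/-- `s'` is the image of `s` under the localisation of `φ` -/
def Rel (φ : Γ(M, U) ≃ₗ[Γ(X, U)] Γ(N, U)) (f : Γ(X, U)) (s : Γ(M, X.basicOpen f))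
    (s' : Γ(N, X.basicOpen f)) : Prop :=
  ∃ (n : ℕ) (m : Γ(M, U)), rs M (X.basicOpen_le f) m = ro (X.basicOpen_le f) f ^ n • s ∧
    rs N (X.basicOpen_le f) (φ m) = ro (X.basicOpen_le f) f ^ n • s'

variable (φ : Γ(M, U) ≃ₗ[Γ(X, U)] Γ(N, U)) (f : Γ(X, U))

theorem Rel.symm {φ : Γ(M, U) ≃ₗ[Γ(X, U)] Γ(N, U)} {f : Γ(X, U)} {s : Γ(M, X.basicOpen f)}
    {s' : Γ(N, X.basicOpen f)} (h : Rel φ f s s') : Rel φ.symm f s' s := by
  obtain ⟨n, m, h1, h2⟩ := h
  exact ⟨n, φ m, h2, by rw [φ.symm_apply_apply]; exact h1⟩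

theorem Rel.exists (hM : QC M U) (s : Γ(M, X.basicOpen f)) : ∃ s', Rel φ f s s' := by
  obtain ⟨n, m, h⟩ := hM.lift f s
  obtain ⟨v, hv⟩ := (isUnit_ro_basicOpen f (le_refl (X.basicOpen f))).pow n
  refine ⟨((v⁻¹ : Γ(X, X.basicOpen f)ˣ) : Γ(X, X.basicOpen f)) • rs N (X.basicOpen_le f) (φ m),
    n, m, h, ?_⟩
  rw [← mul_smul, ← hv, Units.mul_inv, one_smul]

theorem Rel.unique (hM : QC M U) {s : Γ(M, X.basicOpen f)} {s' s'' : Γ(N, X.basicOpen f)}
    (h : Rel φ f s s') (h' : Rel φ f s s'') : s' = s'' := by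
  obtain ⟨n, m, h1, h2⟩ := h
  obtain ⟨n', m', h1', h2'⟩ := h'
  have h3 : rs M (X.basicOpen_le f) (f ^ n' • m - f ^ n • m') = 0 := by
    rw [map_sub, rs_smul, rs_smul, h1, h1', map_pow, map_pow, smul_smul, smul_smul, mul_comm,
      sub_self]
  obtain ⟨k, hk⟩ := hM.eq0 f _ h3
  have h4 := congrArg φ hk
  rw [map_smul, map_sub, map_smul, map_smul, map_zero] at h4
  have h5 := congrArg (rs N (X.basicOpen_le f)) h4
  rw [rs_smul, map_sub, rs_smul, rs_smul, h2, h2', map_zero, map_pow, map_pow, map_pow] at h5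
  apply cancel_pow (M := N) f (le_refl (X.basicOpen f)) (k + n + n')
  rw [← sub_eq_zero, ← smul_sub]
  have h6 : (ro (X.basicOpen_le f) f ^ (k + n + n')) • (s' - s'') =
      ro (X.basicOpen_le f) f ^ k • (ro (X.basicOpen_le f) f ^ n' • ro (X.basicOpen_le f) f ^ n • s'
        - ro (X.basicOpen_le f) f ^ n • ro (X.basicOpen_le f) f ^ n' • s'') := by
    rw [smul_smul, smul_smul, smul_sub, smul_sub, smul_smul, smul_smul]
    congr 2 <;> ring
  exact h6.trans h5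

theorem Rel.add {φ : Γ(M, U) ≃ₗ[Γ(X, U)] Γ(N, U)} {f : Γ(X, U)} {s t : Γ(M, X.basicOpen f)}
    {s' t' : Γ(N, X.basicOpen f)} (h : Rel φ f s s') (h' : Rel φ f t t') :
    Rel φ f (s + t) (s' + t') := by
  obtain ⟨n, m, h1, h2⟩ := h
  obtain ⟨n', m', h1', h2'⟩ := h'
  refine ⟨n + n', f ^ n' • m + f ^ n • m', ?_, ?_⟩
  · rw [map_add, rs_smul, rs_smul, h1, h1', map_pow, map_pow, smul_smul, smul_smul, smul_add,
      pow_add, mul_comm (ro _ f ^ n')]
  · rw [map_add, map_smul, map_smul, map_add, rs_smul, rs_smul, h2, h2', map_pow, map_pow,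
      smul_smul, smul_smul, smul_add, pow_add, mul_comm (ro _ f ^ n')]

theorem Rel.smul (hU : IsAffineOpen U) {φ : Γ(M, U) ≃ₗ[Γ(X, U)] Γ(N, U)} {f : Γ(X, U)}
    {s : Γ(M, X.basicOpen f)} {s' : Γ(N, X.basicOpen f)} (h : Rel φ f s s')
    (r : Γ(X, X.basicOpen f)) : Rel φ f (r • s) (r • s') := by
  obtain ⟨n, m, h1, h2⟩ := h
  have := hU.isLocalization_basicOpen f
  obtain ⟨a, ⟨_, k, rfl⟩, hr⟩ := IsLocalization.exists_mk'_eq (Submonoid.powers f) r
  have hr2 : ro (X.basicOpen_le f) a = ro (X.basicOpen_le f) f ^ k * r := by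
    rw [IsLocalization.mk'_eq_iff_eq_mul] at hr
    have h3 : algebraMap Γ(X, U) Γ(X, X.basicOpen f) a = r * algebraMap _ _ (f ^ k) := hr
    rw [map_pow, mul_comm] at h3
    exact h3
  refine ⟨k + n, a • m, ?_, ?_⟩
  · rw [rs_smul, h1, hr2, smul_smul, smul_smul]
    congr 1
    ring
  · rw [map_smul, rs_smul, h2, hr2, smul_smul, smul_smul]
    congr 1
    ring

/-- restriction of related sections -/
theorem Rel.restrict {A : X.Opens} (hAU : A ≤ U) (hMA : QC M A)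
    {φ : Γ(M, U) ≃ₗ[Γ(X, U)] Γ(N, U)} {φA : Γ(M, A) ≃ₗ[Γ(X, A)] Γ(N, A)}
    (hφ : ∀ m, φA (rs M hAU m) = rs N hAU (φ m)) {f : Γ(X, U)} {g : Γ(X, A)}
    (hgf : X.basicOpen g ≤ X.basicOpen f)
    {s : Γ(M, X.basicOpen f)} {s' : Γ(N, X.basicOpen f)} (h : Rel φ f s s') :
    Rel φA g (rs M hgf s) (rs N hgf s') := by
  obtain ⟨n, m, h1, h2⟩ := h
  obtain ⟨t', n', m', h1', h2'⟩ := Rel.exists φA g hMA (rs M hgf s)
  have key : rs N hgf s' = t' := by
    -- compare after multiplication by `f ^ n * g ^ n'`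
    have h3 := congrArg (rs M hgf) h1
    have h4 := congrArg (rs N hgf) h2
    rw [rs_smul, rs_rs, map_pow, ro_ro] at h3 h4
    -- `f^n • m'` and `g^n' • m|_A` agree on `D(g)`
    have h5 : rs M (X.basicOpen_le g) (ro hAU f ^ n • m' - g ^ n' • rs M hAU m) = 0 := by
      rw [map_sub, rs_smul, rs_smul, h1', rs_rs, h3, map_pow, map_pow, ro_ro, smul_smul, smul_smul,
        mul_comm, sub_self]
    obtain ⟨k, hk⟩ := hMA.eq0 g _ h5
    have h6 := congrArg φA hk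
    rw [map_smul, map_sub, map_smul, map_smul, map_zero, hφ] at h6
    have h7 := congrArg (rs N (X.basicOpen_le g)) h6
    rw [rs_smul, map_sub, rs_smul, rs_smul, h2', rs_rs, h4, map_zero, map_pow, map_pow, map_pow,
      ro_ro] at h7
    apply cancel_pow (M := N) f hgf n
    apply cancel_pow (M := N) g (le_refl _) (k + n')
    rw [← sub_eq_zero, ← smul_sub]
    rw [← neg_eq_zero, ← smul_neg, neg_sub] at h7 ⊢
    rw [← neg_eq_zero, ← smul_neg, neg_sub, ← h7, pow_add, mul_smul, smul_sub]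
    congr 2
    rw [smul_smul, smul_smul, mul_comm]
  rw [key]
  exact ⟨n', m', h1', h2'⟩

end ext

end Fermat.Agent.JE3
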