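import Fermat.Agent.JE3.Q5

set_option autoImplicit false

/-! S25 block E3, (Q6): products of invertible sheaves of modules via generators. -/

universe u

open CategoryTheory AlgebraicGeometry TopologicalSpace Opposite
open Fermat.Agent.JE (ro rs rs_rs ro_ro ro_self rs_self rs_smul rs_sep rs_glue basicOpen_ro
  LocFree pow_smul_eq_zero exists_pow_smul gen_iff gen_rs gen_exists_eq gen_eq_zero)
open Fermat.Agent.JPb (Gen)

namespace Fermat.Agent.JE3

variable {X : Scheme.{u}} {M N P : X.Modules}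

section coef

variable {U : X.Opens} {e : Γ(M, U)} (he : Gen M U e)

/-- the coefficient of a section with respect to a generator -/
noncomputable def coef {V : X.Opens} (h : V ≤ U) (s : Γ(M, V)) : Γ(X, V) :=
  (gen_exists_eq he h s).choose

theorem coef_smul_gen {V : X.Opens} (h : V ≤ U) (s : Γ(M, V)) : coef he h s • rs M h e = s :=
  (gen_exists_eq he h s).choose_spec.symm

theorem coef_eq {V : X.Opens} (h : V ≤ U) {s : Γ(M, V)} {a : Γ(X, V)} (ha : a • rs M h e = s) :
    coef he h s = a :=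
  (gen_iff.1 he V h).1 ((coef_smul_gen he h s).trans ha.symm)

theorem coef_add {V : X.Opens} (h : V ≤ U) (s t : Γ(M, V)) :
    coef he h (s + t) = coef he h s + coef he h t :=
  coef_eq he h (by rw [add_smul, coef_smul_gen, coef_smul_gen])

theorem coef_smul {V : X.Opens} (h : V ≤ U) (r : Γ(X, V)) (s : Γ(M, V)) :
    coef he h (r • s) = r * coef he h s :=
  coef_eq he h (by rw [mul_smul, coef_smul_gen])

theorem coef_res {V V' : X.Opens} (h : V ≤ U) (h' : V' ≤ V) (s : Γ(M, V)) :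
    coef he (h'.trans h) (rs M h' s) = ro h' (coef he h s) :=
  coef_eq he _ (by
    have := congrArg (rs M h') (coef_smul_gen he h s)
    rwa [rs_smul, rs_rs] at this)

theorem coef_gen {V : X.Opens} (h : V ≤ U) : coef he h (rs M h e) = 1 :=
  coef_eq he h (one_smul _ _)

/-- the coefficient of a generator is a unit -/
theorem isUnit_coef {V : X.Opens} (h : V ≤ U) {s : Γ(M, V)} (hs : Gen M V s) :
    IsUnit (coef he h s) := by
  obtain ⟨b, hb⟩ := gen_exists_eq hs le_rfl (rs M h e)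
  rw [rs_self] at hb
  have h1 : (b * coef he h s) • rs M h e = (1 : Γ(X, V)) • rs M h e := by
    rw [mul_smul, coef_smul_gen, one_smul, ← hb]
  have h2 : b * coef he h s = 1 := (gen_iff.1 he V h).1 h1
  exact IsUnit.of_mul_eq_one b (by rw [mul_comm]; exact h2)

end coef

theorem gen_unit_smul {U : X.Opens} {e : Γ(M, U)} (he : Gen M U e) {a : Γ(X, U)} (ha : IsUnit a) :
    Gen M U (a • e) := by
  rw [gen_iff]
  intro V h
  obtain ⟨v, hv⟩ := ha.map (ro h)
  constructor
  · intro x y hxy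
    have hxy : x • rs M h (a • e) = y • rs M h (a • e) := hxy
    rw [rs_smul, ← hv, ← mul_smul, ← mul_smul] at hxy
    exact (Units.mul_left_inj v).1 ((gen_iff.1 he V h).1 hxy)
  · intro s
    obtain ⟨b, hb⟩ := gen_exists_eq he h s
    refine ⟨b * ((v⁻¹ : Γ(X, V)ˣ) : Γ(X, V)), ?_⟩
    show (b * ((v⁻¹ : Γ(X, V)ˣ) : Γ(X, V))) • rs M h (a • e) = s
    rw [rs_smul, ← hv, ← mul_smul, mul_assoc, Units.inv_mul, mul_one]
    exact hb.symm

/-- being a generator is a local property -/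
theorem gen_of_locally {ι : Type*} {O : X.Opens} (U : ι → X.Opens)
    (hU : ∀ i, U i ≤ O) (hO : ∀ x ∈ O, ∃ i, x ∈ U i) {s : Γ(M, O)}
    (h : ∀ i, Gen M (U i) (rs M (hU i) s)) : Gen M O s := by
  rw [gen_iff]
  intro V hV
  have hcov : ∀ x ∈ V, ∃ i, x ∈ V ⊓ U i := fun x hx => by
    obtain ⟨i, hi⟩ := hO x (hV hx)
    exact ⟨i, hx, hi⟩
  constructor
  · intro a b hab
    have hab : a • rs M hV s = b • rs M hV s := hab
    refine eq_of_locally_O (fun i => V ⊓ U i) (fun i => inf_le_left) hcov (fun i => ?_)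
    have h1 := congrArg (rs M (inf_le_left : V ⊓ U i ≤ V)) hab
    rw [rs_smul, rs_smul, rs_rs] at h1
    have h2 := (gen_iff.1 (h i) (V ⊓ U i) inf_le_right).1
    have e1 : rs M (inf_le_right : V ⊓ U i ≤ U i) (rs M (hU i) s) =
        rs M ((inf_le_left : V ⊓ U i ≤ V).trans hV) s := rs_rs _ _ _
    rw [e1] at h2
    exact h2 h1
  · intro t
    choose a ha using fun i => gen_exists_eq (h i) (inf_le_right : V ⊓ U i ≤ U i)
      (rs M (inf_le_left : V ⊓ U i ≤ V) t)
    -- glue the coefficients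
    obtain ⟨b, hb, -⟩ := TopCat.Sheaf.existsUnique_gluing' X.sheaf (fun i => V ⊓ U i) V
      (fun i => homOfLE inf_le_left) (fun x hx => Opens.mem_iSup.2 (hcov x hx)) a (by
        intro i j
        let W : X.Opens := (V ⊓ U i) ⊓ (V ⊓ U j)
        have hWi : W ≤ U i := inf_le_left.trans inf_le_right
        have h2 := (gen_iff.1 (h i) W hWi).1
        apply h2
        show ro (inf_le_left : W ≤ V ⊓ U i) (a i) • rs M hWi (rs M (hU i) s) =
          ro (inf_le_right : W ≤ V ⊓ U j) (a j) • rs M hWi (rs M (hU i) s)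
        have e1 := congrArg (rs M (inf_le_left : W ≤ V ⊓ U i)) (ha i)
        have e2 := congrArg (rs M (inf_le_right : W ≤ V ⊓ U j)) (ha j)
        rw [rs_smul] at e1 e2
        simp only [rs_rs] at e1 e2 ⊢
        exact e1.symm.trans e2)
    refine ⟨(b : Γ(X, V)), ?_⟩
    show (show Γ(X, V) from b) • rs M hV s = t
    refine eq_of_locally M (fun i => V ⊓ U i) (fun i => inf_le_left) hcov (fun i => ?_)
    have hb' : ro (inf_le_left : V ⊓ U i ≤ V) (show Γ(X, V) from b) = a i := hb i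
    rw [rs_smul, hb', ha i, rs_rs, rs_rs]

/-- `P` is a product of `M` and `N` -/
structure Prod3 (M N P : X.Modules) where
  ι : Type u
  U : ι → X.Opens
  cov : ∀ x : X, ∃ i, x ∈ U i
  e : ∀ i, Γ(M, U i)
  f : ∀ i, Γ(N, U i)
  g : ∀ i, Γ(P, U i)
  he : ∀ i, Gen M (U i) (e i)
  hf : ∀ i, Gen N (U i) (f i)
  hg : ∀ i, Gen P (U i) (g i)
  mul : ∀ i j (a b : Γ(X, U i ⊓ U j)),
    rs M (inf_le_left : U i ⊓ U j ≤ U i) (e i) = a • rs M (inf_le_right : U i ⊓ U j ≤ U j) (e j) →
    rs N (inf_le_left : U i ⊓ U j ≤ U i) (f i) = b • rs N (inf_le_right : U i ⊓ U j ≤ U j) (f j) →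
    rs P (inf_le_left : U i ⊓ U j ≤ U i) (g i) =
      (a * b) • rs P (inf_le_right : U i ⊓ U j ≤ U j) (g j)

namespace Prod3

variable (D : Prod3 M N P)

theorem mul' (i j : D.ι) {O : X.Opens} (hi : O ≤ D.U i) (hj : O ≤ D.U j) :
    rs P hi (D.g i) = (coef (D.he j) hj (rs M hi (D.e i)) *
      coef (D.hf j) hj (rs N hi (D.f i))) • rs P hj (D.g j) := by
  have h1 := coef_smul_gen (D.he j) (inf_le_right : D.U i ⊓ D.U j ≤ D.U j)
    (rs M inf_le_left (D.e i))
  have h2 := coef_smul_gen (D.hf j) (inf_le_right : D.U i ⊓ D.U j ≤ D.U j)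
    (rs N inf_le_left (D.f i))
  have h3 := D.mul i j _ _ h1.symm h2.symm
  have h4 := congrArg (rs P (le_inf hi hj)) h3
  rw [rs_smul, rs_rs, rs_rs, map_mul, ← coef_res, ← coef_res, rs_rs, rs_rs] at h4
  exact h4

/-- the local expression of the product of two sections -/
noncomputable def loc (i : D.ι) {O : X.Opens} (h : O ≤ D.U i) (s : Γ(M, O)) (t : Γ(N, O)) :
    Γ(P, O) :=
  (coef (D.he i) h s * coef (D.hf i) h t) • rs P h (D.g i)

theorem loc_res (i : D.ι) {O O' : X.Opens} (h : O ≤ D.U i) (h' : O' ≤ O) (s : Γ(M, O))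
    (t : Γ(N, O)) :
    rs P h' (D.loc i h s t) = D.loc i (h'.trans h) (rs M h' s) (rs N h' t) := by
  unfold loc
  rw [rs_smul, rs_rs, map_mul, ← coef_res, ← coef_res]

theorem loc_eq (i j : D.ι) {O : X.Opens} (hi : O ≤ D.U i) (hj : O ≤ D.U j) (s : Γ(M, O))
    (t : Γ(N, O)) : D.loc i hi s t = D.loc j hj s t := by
  unfold loc
  rw [D.mul' i j hi hj, ← mul_smul]
  congr 1
  have h1 : coef (D.he j) hj s = coef (D.he i) hi s * coef (D.he j) hj (rs M hi (D.e i)) :=
    coef_eq _ _ (by rw [mul_smul, coef_smul_gen, coef_smul_gen])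
  have h2 : coef (D.hf j) hj t = coef (D.hf i) hi t * coef (D.hf j) hj (rs N hi (D.f i)) :=
    coef_eq _ _ (by rw [mul_smul, coef_smul_gen, coef_smul_gen])
  rw [h1, h2]
  ring

theorem exists_mul {O : X.Opens} (s : Γ(M, O)) (t : Γ(N, O)) :
    ∃ p : Γ(P, O), ∀ (i : D.ι) (O' : X.Opens) (h : O' ≤ O) (h' : O' ≤ D.U i),
      rs P h p = D.loc i h' (rs M h s) (rs N h t) := by
  obtain ⟨p, hp⟩ := exists_glue P (fun i => O ⊓ D.U i) (fun i => inf_le_left)
    (fun x hx => by obtain ⟨i, hi⟩ := D.cov x; exact ⟨i, hx, hi⟩)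
    (fun i => D.loc i inf_le_right (rs M inf_le_left s) (rs N inf_le_left t)) (by
      intro i j
      rw [loc_res, loc_res]
      simp only [rs_rs]
      exact D.loc_eq i j _ _ _ _)
  refine ⟨p, fun i O' h h' => ?_⟩
  have h1 := congrArg (rs P (le_inf h h' : O' ≤ O ⊓ D.U i)) (hp i)
  rw [rs_rs, loc_res, rs_rs, rs_rs] at h1
  exact h1

/-- the product of two sections -/
noncomputable def β {O : X.Opens} (s : Γ(M, O)) (t : Γ(N, O)) : Γ(P, O) :=
  (D.exists_mul s t).choose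

theorem β_spec {O : X.Opens} (s : Γ(M, O)) (t : Γ(N, O)) (i : D.ι) (O' : X.Opens) (h : O' ≤ O)
    (h' : O' ≤ D.U i) : rs P h (D.β s t) = D.loc i h' (rs M h s) (rs N h t) :=
  (D.exists_mul s t).choose_spec i O' h h'

theorem ext_local {O : X.Opens} {p q : Γ(P, O)}
    (h : ∀ (i : D.ι) (O' : X.Opens) (h : O' ≤ O), O' ≤ D.U i → rs P h p = rs P h q) : p = q :=
  eq_of_locally P (fun i => O ⊓ D.U i) (fun i => inf_le_left)
    (fun x hx => by obtain ⟨i, hi⟩ := D.cov x; exact ⟨i, hx, hi⟩)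
    (fun i => h i _ _ inf_le_right)

theorem β_add_left {O : X.Opens} (s s' : Γ(M, O)) (t : Γ(N, O)) :
    D.β (s + s') t = D.β s t + D.β s' t :=
  D.ext_local fun i O' h h' => by
    rw [map_add, D.β_spec _ _ i O' h h', D.β_spec _ _ i O' h h', D.β_spec _ _ i O' h h']
    unfold loc
    rw [map_add, coef_add, add_mul, add_smul]

theorem β_add_right {O : X.Opens} (s : Γ(M, O)) (t t' : Γ(N, O)) :
    D.β s (t + t') = D.β s t + D.β s t' :=
  D.ext_local fun i O' h h' => by
    rw [map_add, D.β_spec _ _ i O' h h', D.β_spec _ _ i O' h h', D.β_spec _ _ i O' h h']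
    unfold loc
    rw [map_add, coef_add, mul_add, add_smul]

theorem β_smul_left {O : X.Opens} (r : Γ(X, O)) (s : Γ(M, O)) (t : Γ(N, O)) :
    D.β (r • s) t = r • D.β s t :=
  D.ext_local fun i O' h h' => by
    rw [rs_smul, D.β_spec _ _ i O' h h', D.β_spec _ _ i O' h h']
    unfold loc
    rw [rs_smul, coef_smul, mul_assoc, mul_smul]

theorem β_smul_right {O : X.Opens} (r : Γ(X, O)) (s : Γ(M, O)) (t : Γ(N, O)) :
    D.β s (r • t) = r • D.β s t :=
  D.ext_local fun i O' h h' => by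
    rw [rs_smul, D.β_spec _ _ i O' h h', D.β_spec _ _ i O' h h']
    unfold loc
    rw [rs_smul, coef_smul, mul_left_comm, mul_smul]

theorem β_res {O O' : X.Opens} (h : O' ≤ O) (s : Γ(M, O)) (t : Γ(N, O)) :
    rs P h (D.β s t) = D.β (rs M h s) (rs N h t) :=
  D.ext_local fun i O'' h' h'' => by
    rw [rs_rs, D.β_spec _ _ i O'' _ h'', D.β_spec _ _ i O'' _ h'', rs_rs, rs_rs]

/-- the product of generators is a generator -/
theorem gen_β {O : X.Opens} {s : Γ(M, O)} {t : Γ(N, O)} (hs : Gen M O s) (ht : Gen N O t) :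
    Gen P O (D.β s t) := by
  refine gen_of_locally (fun i => O ⊓ D.U i) (fun i => inf_le_left)
    (fun x hx => by obtain ⟨i, hi⟩ := D.cov x; exact ⟨i, hx, hi⟩) (fun i => ?_)
  rw [D.β_spec s t i _ inf_le_left inf_le_right]
  exact gen_unit_smul (gen_rs (D.hg i) inf_le_right)
    ((isUnit_coef (D.he i) _ (gen_rs hs inf_le_left)).mul
      (isUnit_coef (D.hf i) _ (gen_rs ht inf_le_left)))

theorem β_gen (i : D.ι) : D.β (D.e i) (D.f i) = D.g i := by
  have h := D.β_spec (D.e i) (D.f i) i (D.U i) le_rfl le_rfl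
  rw [rs_self] at h
  rw [h]
  unfold loc
  rw [coef_gen, coef_gen, one_mul, one_smul, rs_self]

/-- the multiplication as a bilinear map -/
noncomputable def bil (O : X.Opens) : Γ(M, O) →ₗ[Γ(X, O)] Γ(N, O) →ₗ[Γ(X, O)] Γ(P, O) :=
  LinearMap.mk₂ Γ(X, O) D.β D.β_add_left D.β_smul_left D.β_add_right D.β_smul_right

@[simp] theorem bil_apply (O : X.Opens) (s : Γ(M, O)) (t : Γ(N, O)) : D.bil O s t = D.β s t := rfl

include D in
theorem locFree_left : LocFree M ⊤ := fun x _ => by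
  obtain ⟨i, hi⟩ := D.cov x
  exact ⟨D.U i, hi, D.e i, D.he i⟩

include D in
theorem locFree_right : LocFree N ⊤ := fun x _ => by
  obtain ⟨i, hi⟩ := D.cov x
  exact ⟨D.U i, hi, D.f i, D.hf i⟩

include D in
theorem locFree : LocFree P ⊤ := fun x _ => by
  obtain ⟨i, hi⟩ := D.cov x
  exact ⟨D.U i, hi, D.g i, D.hg i⟩

end Prod3

end Fermat.Agent.JE3
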