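import Fermat.Agent.JE3.Charts

set_option autoImplicit false

/-! S25 block E3, (Q5): line data determine the sheaf of modules. -/

universe u

open CategoryTheory AlgebraicGeometry TopologicalSpace Opposite
open Fermat.Agent.JE (ro rs rs_rs ro_ro ro_self rs_self rs_smul rs_sep rs_glue basicOpen_ro
  LocFree pow_smul_eq_zero exists_pow_smul)
open Fermat.Agent.JPb (Gen)

namespace Fermat.Agent.JE3

variable {X : Scheme.{u}} {M N : X.Modules} {U V : X.Opens}

theorem QC.of_locFree (hU : IsAffineOpen U) (hM : LocFree M U) : QC M U :=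
  ⟨fun f s h => pow_smul_eq_zero hU hM f s h, fun f s => exists_pow_smul hU hM f s⟩

/-- if `W = D(t)` and `t` is a nonzerodivisor on `Γ(M, U)`, the restriction is injective -/
theorem QC.res_injective (h : QC M U) {W : X.Opens} (hW : W ≤ U) (t : Γ(X, U))
    (ht : X.basicOpen t = W) (hreg : ∀ m : Γ(M, U), t • m = 0 → m = 0) :
    Function.Injective (rs M hW) := by
  subst ht
  rw [injective_iff_map_eq_zero]
  intro m hm
  obtain ⟨n, hn⟩ := h.eq0 t m hm
  induction n with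
  | zero => simpa using hn
  | succ n ih =>
    rw [pow_succ', mul_smul] at hn
    exact ih (hreg _ hn)

/-- a nonzerodivisor of `Γ(X, U)` is a nonzerodivisor on `Γ(M, U)` -/
theorem regular_of_locFree (hU : IsAffineOpen U) (hM : LocFree M U) (t : Γ(X, U))
    (ht : ∀ a : Γ(X, U), t * a = 0 → a = 0) (m : Γ(M, U)) (h : t • m = 0) : m = 0 := by
  obtain ⟨n, g, hcov, hfr⟩ := hM.exists_cover hU
  refine rs_sep (fun i => X.basicOpen (g i)) U (fun i => X.basicOpen_le (g i)) hcov _ _ ?_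
  intro i
  obtain ⟨e, he⟩ := hfr i
  obtain ⟨a, ha⟩ := Fermat.Agent.JE.gen_exists_eq he le_rfl (rs M (X.basicOpen_le (g i)) m)
  have h1 : (ro (X.basicOpen_le (g i)) t * a) • rs M le_rfl e = 0 := by
    rw [mul_smul, ← ha, ← rs_smul, h, map_zero]
  have h2 := Fermat.Agent.JE.gen_eq_zero he _ h1
  -- `t` is regular on the localisation
  have := hU.isLocalization_basicOpen (g i)
  obtain ⟨b, ⟨_, k, rfl⟩, hb⟩ := IsLocalization.exists_mk'_eq (Submonoid.powers (g i)) a
  have h3 : ro (X.basicOpen_le (g i)) b = a * ro (X.basicOpen_le (g i)) (g i ^ k) := by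
    rw [IsLocalization.mk'_eq_iff_eq_mul] at hb
    exact hb
  have h4 : ro (X.basicOpen_le (g i)) (t * b) = 0 := by
    rw [map_mul, h3, ← mul_assoc, h2, zero_mul]
  have h5 : algebraMap Γ(X, U) Γ(X, X.basicOpen (g i)) (t * b) = 0 := h4
  rw [IsLocalization.map_eq_zero_iff (Submonoid.powers (g i))] at h5
  obtain ⟨⟨_, l, rfl⟩, hl⟩ := h5
  have h6 : g i ^ l * b = 0 := by
    apply ht
    rw [mul_left_comm]
    exact hl
  have h7 : ro (X.basicOpen_le (g i)) b = 0 := by
    have := congrArg (ro (X.basicOpen_le (g i))) h6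
    rw [map_mul, map_pow, map_zero] at this
    exact ((isUnit_ro_basicOpen (g i) (le_refl _)).pow l).mul_right_eq_zero.1 this
  have h8 : a = 0 := by
    rw [h7, map_pow] at h3
    exact ((isUnit_ro_basicOpen (g i) (le_refl _)).pow k).mul_left_eq_zero.1 h3.symm
  rw [ha, h8, zero_smul, map_zero]

/-- the isomorphism on a chart deduced from the one on the intersection -/
theorem exists_chart_iso {W : X.Opens} (hW : W ≤ U) (hMi : Function.Injective (rs M hW))
    (hNi : Function.Injective (rs N hW)) (φ : Γ(M, W) ≃ₗ[Γ(X, W)] Γ(N, W))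
    (h : φ '' Set.range (rs M hW) = Set.range (rs N hW)) :
    ∃ ψ : Γ(M, U) ≃ₗ[Γ(X, U)] Γ(N, U), ∀ m, φ (rs M hW m) = rs N hW (ψ m) := by
  have h1 : ∀ m : Γ(M, U), ∃ n : Γ(N, U), rs N hW n = φ (rs M hW m) := by
    intro m
    have : φ (rs M hW m) ∈ Set.range (rs N hW) := h ▸ ⟨_, ⟨m, rfl⟩, rfl⟩
    exact this
  choose ψ hψ using h1
  let ψ' : Γ(M, U) →ₗ[Γ(X, U)] Γ(N, U) :=
    { toFun := ψ
      map_add' := fun a b => hNi (by rw [hψ, map_add, map_add, map_add, hψ, hψ])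
      map_smul' := fun r a => hNi (by
        rw [hψ, RingHom.id_apply, rs_smul, rs_smul, map_smul, hψ]) }
  have hbij : Function.Bijective ψ' := by
    constructor
    · intro a b hab
      apply hMi
      apply φ.injective
      rw [← hψ, ← hψ]
      exact congrArg _ hab
    · intro n
      have : rs N hW n ∈ φ '' Set.range (rs M hW) := h ▸ ⟨n, rfl⟩
      obtain ⟨_, ⟨m, rfl⟩, hm⟩ := this
      exact ⟨m, hNi ((hψ m).trans hm)⟩
  exact ⟨LinearEquiv.ofBijective ψ' hbij, fun m => (hψ m).symm⟩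

/-- (Q5) two sheaves of modules with isomorphic line data are isomorphic -/
theorem nonempty_iso_of_LD (hU : IsAffineOpen U) (hV : IsAffineOpen V) (hUV : U ⊔ V = ⊤)
    (hW : IsAffineOpen (U ⊓ V)) (hM : LocFree M ⊤) (hN : LocFree N ⊤)
    (hMU : Function.Injective (rs M (inf_le_left : U ⊓ V ≤ U)))
    (hMV : Function.Injective (rs M (inf_le_right : U ⊓ V ≤ V)))
    (hNU : Function.Injective (rs N (inf_le_left : U ⊓ V ≤ U)))
    (hNV : Function.Injective (rs N (inf_le_right : U ⊓ V ≤ V)))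
    (φ : Γ(M, U ⊓ V) ≃ₗ[Γ(X, U ⊓ V)] Γ(N, U ⊓ V))
    (h0 : φ '' Set.range (rs M (inf_le_left : U ⊓ V ≤ U)) =
      Set.range (rs N (inf_le_left : U ⊓ V ≤ U)))
    (h1 : φ '' Set.range (rs M (inf_le_right : U ⊓ V ≤ V)) =
      Set.range (rs N (inf_le_right : U ⊓ V ≤ V))) : Nonempty (M ≅ N) := by
  obtain ⟨φU, hφU⟩ := exists_chart_iso _ hMU hNU φ h0
  obtain ⟨φV, hφV⟩ := exists_chart_iso _ hMV hNV φ h1
  exact nonempty_iso_of_charts hU hV hUV
    (QC.of_locFree hU (hM.mono le_top)) (QC.of_locFree hV (hM.mono le_top))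
    (QC.of_locFree hW (hM.mono le_top))
    (QC.of_locFree hU (hN.mono le_top)) (QC.of_locFree hV (hN.mono le_top)) φU φV φ hφU hφV

/-- (Q5), version with nonzerodivisors `t`, `t'` cutting out `U ∩ V` -/
theorem nonempty_iso_of_LD' (hU : IsAffineOpen U) (hV : IsAffineOpen V) (hUV : U ⊔ V = ⊤)
    (t : Γ(X, U)) (t' : Γ(X, V)) (ht : X.basicOpen t = U ⊓ V) (ht' : X.basicOpen t' = U ⊓ V)
    (htr : ∀ a : Γ(X, U), t * a = 0 → a = 0) (htr' : ∀ a : Γ(X, V), t' * a = 0 → a = 0)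
    (hM : LocFree M ⊤) (hN : LocFree N ⊤)
    (φ : Γ(M, U ⊓ V) ≃ₗ[Γ(X, U ⊓ V)] Γ(N, U ⊓ V))
    (h0 : φ '' Set.range (rs M (inf_le_left : U ⊓ V ≤ U)) =
      Set.range (rs N (inf_le_left : U ⊓ V ≤ U)))
    (h1 : φ '' Set.range (rs M (inf_le_right : U ⊓ V ≤ V)) =
      Set.range (rs N (inf_le_right : U ⊓ V ≤ V))) : Nonempty (M ≅ N) := by
  have hMU := hM.mono (le_top : U ≤ ⊤)
  have hMV := hM.mono (le_top : V ≤ ⊤)
  have hNU := hN.mono (le_top : U ≤ ⊤)
  have hNV := hN.mono (le_top : V ≤ ⊤)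
  exact nonempty_iso_of_LD hU hV hUV (ht ▸ hU.basicOpen t) hM hN
    ((QC.of_locFree hU hMU).res_injective _ t ht (regular_of_locFree hU hMU t htr))
    ((QC.of_locFree hV hMV).res_injective _ t' ht' (regular_of_locFree hV hMV t' htr'))
    ((QC.of_locFree hU hNU).res_injective _ t ht (regular_of_locFree hU hNU t htr))
    ((QC.of_locFree hV hNV).res_injective _ t' ht' (regular_of_locFree hV hNV t' htr')) φ h0 h1

end Fermat.Agent.JE3
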