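import Fermat.Agent.JE.Loc

set_option autoImplicit false

/-! S25 block E3: elementary tools for sections of sheaves of modules on a scheme. -/

universe u

open CategoryTheory AlgebraicGeometry TopologicalSpace Opposite
open Fermat.Agent.JE (ro rs rs_rs ro_ro ro_self rs_self rs_smul rs_sep rs_glue basicOpen_ro)

namespace Fermat.Agent.JE3

variable {X : Scheme.{u}}

theorem rs_inj_of_le (M : X.Modules) {U V : X.Opens} (h : V ≤ U) (h' : U ≤ V) {s t : Γ(M, U)}
    (hst : rs M h s = rs M h t) : s = t := by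
  have := congrArg (rs M h') hst
  rwa [rs_rs, rs_rs, rs_self, rs_self] at this

theorem rs_hom {M N : X.Modules} (φ : M ⟶ N) {U V : X.Opens} (h : V ≤ U) (s : Γ(M, U)) :
    rs N h (φ.app U s) = φ.app V (rs M h s) := by
  have := CategoryTheory.congr_fun (φ.mapPresheaf.naturality (homOfLE h).op) s
  exact this.symm

/-- local equality implies equality -/
theorem eq_of_locally (M : X.Modules) {ι : Type*} {O : X.Opens} (U : ι → X.Opens)
    (hU : ∀ i, U i ≤ O) (hO : ∀ x ∈ O, ∃ i, x ∈ U i) {s t : Γ(M, O)}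
    (h : ∀ i, rs M (hU i) s = rs M (hU i) t) : s = t :=
  rs_sep U O hU (fun x hx => Opens.mem_iSup.2 (hO x hx)) s t h

theorem eq_of_locally_O {ι : Type*} {O : X.Opens} (U : ι → X.Opens)
    (hU : ∀ i, U i ≤ O) (hO : ∀ x ∈ O, ∃ i, x ∈ U i) {s t : Γ(X, O)}
    (h : ∀ i, ro (hU i) s = ro (hU i) t) : s = t := by
  apply TopCat.Presheaf.IsSheaf.section_ext (F := X.presheaf) X.sheaf.2
  intro x hx
  obtain ⟨i, hi⟩ := hO x hx
  exact ⟨U i, hU i, hi, h i⟩

/-- glueing of sections -/
theorem exists_glue (M : X.Modules) {ι : Type*} {O : X.Opens} (U : ι → X.Opens)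
    (hU : ∀ i, U i ≤ O) (hO : ∀ x ∈ O, ∃ i, x ∈ U i) (s : ∀ i, Γ(M, U i))
    (h : ∀ i j, rs M (inf_le_left : U i ⊓ U j ≤ U i) (s i) =
      rs M (inf_le_right : U i ⊓ U j ≤ U j) (s j)) :
    ∃ t : Γ(M, O), ∀ i, rs M (hU i) t = s i :=
  rs_glue U O hU (fun x hx => Opens.mem_iSup.2 (hO x hx)) s h

/-- additive and linear maps on a sections, natural in the open set, form a morphism. -/
noncomputable def homOfNat {M N : X.Modules} (α : M.presheaf ⟶ N.presheaf)
    (h : ∀ (O : X.Opens) (a : Γ(X, O)) (s : Γ(M, O)),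
      (α.app (op O)).hom (a • s) = a • (α.app (op O)).hom s) : M ⟶ N :=
  (Scheme.Modules.fullyFaithfulToPresheafOfModules (X := X)).preimage
    (PresheafOfModules.homMk α (fun O a s => h O.unop a s))

theorem homOfNat_mapPresheaf {M N : X.Modules} (α : M.presheaf ⟶ N.presheaf)
    (h : ∀ (O : X.Opens) (a : Γ(X, O)) (s : Γ(M, O)),
      (α.app (op O)).hom (a • s) = a • (α.app (op O)).hom s) :
    (homOfNat α h).mapPresheaf = α := by
  rfl

theorem homOfNat_app {M N : X.Modules} (α : M.presheaf ⟶ N.presheaf)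
    (h : ∀ (O : X.Opens) (a : Γ(X, O)) (s : Γ(M, O)),
      (α.app (op O)).hom (a • s) = a • (α.app (op O)).hom s) (O : X.Opens) (s : Γ(M, O)) :
    (homOfNat α h).app O s = (α.app (op O)).hom s := rfl

theorem isUnit_ro_basicOpen {U : X.Opens} (f : Γ(X, U)) {V : X.Opens} (h : V ≤ X.basicOpen f) :
    IsUnit (ro (h.trans (X.basicOpen_le f)) f) := by
  have h1 : IsUnit (ro (X.basicOpen_le f) f) :=
    RingedSpace.isUnit_res_basicOpen X.toRingedSpace f
  have h2 := h1.map (ro h)
  rwa [ro_ro] at h2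

end Fermat.Agent.JE3
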